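import Mathlib

set_option autoImplicit false

/-!
# Rings generated by commuting semisimple elements are reduced
-/

open Polynomial Module

namespace Fermat.Agent.Pet

noncomputable section

/-- in a reduced `ℚ`-algebra the minimal polynomials are squarefree -/
theorem squarefree_minpoly {K A : Type*} [Field K] [CommRing A] [Algebra K A] [IsReduced A]
    {t : A} (ht : IsIntegral K t) : Squarefree (minpoly K t) := by
  intro a ha
  obtain ⟨b, hb⟩ := ha
  have h0 : minpoly K t ≠ 0 := minpoly.ne_zero ht
  have hab : a * b ≠ 0 := by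
    intro h
    apply h0
    rw [hb, mul_assoc, h, mul_zero]
  have h1 : aeval t (a * b) ^ 2 = 0 := by
    rw [← map_pow]
    have e : (a * b) ^ 2 = minpoly K t * b := by rw [hb]; ring
    rw [e, map_mul, minpoly.aeval, zero_mul]
  have h2 : aeval t (a * b) = 0 := pow_eq_zero_iff two_ne_zero |>.mp h1
  have h3 := minpoly.dvd K t h2
  rw [hb, mul_assoc] at h3
  have h4 : a * (a * b) ∣ 1 * (a * b) := by rwa [one_mul]
  exact isUnit_of_dvd_one ((mul_dvd_mul_iff_right hab).mp h4)

/-- `x` is a root of an integral polynomial which is separable over `ℚ` -/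
def SepInt {A : Type*} [Ring A] (x : A) : Prop :=
  ∃ P : ℤ[X], (P.map (Int.castRingHom ℚ)).Separable ∧ aeval x P = 0

theorem SepInt.map {A B : Type*} [Ring A] [Ring B] {x : A} (h : SepInt x) (f : A →+* B) :
    SepInt (f x) := by
  obtain ⟨P, h1, h2⟩ := h
  refine ⟨P, h1, ?_⟩
  have h3 := congrArg f h2
  rw [map_zero] at h3
  have h4 : f (aeval x P) = aeval (f x) P := by
    rw [aeval_def, aeval_def, Polynomial.hom_eval₂]
    congr 1
    exact RingHom.ext_int _ _
  rwa [h4] at h3

theorem SepInt.of_injective {A B : Type*} [Ring A] [Ring B] {x : A} (f : A →+* B)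
    (hf : Function.Injective f) (h : SepInt (f x)) : SepInt x := by
  obtain ⟨P, h1, h2⟩ := h
  refine ⟨P, h1, ?_⟩
  apply hf
  rw [map_zero, ← h2]
  rw [aeval_def, aeval_def, Polynomial.hom_eval₂]
  congr 1
  exact RingHom.ext_int _ _

theorem sepInt_of_reduced {A : Type*} [CommRing A] [Algebra ℚ A] [IsReduced A] {t : A}
    (ht : IsIntegral ℤ t) : SepInt t := by
  have htQ : IsIntegral ℚ t := ht.tower_top
  have h1 := squarefree_minpoly htQ
  set p := minpoly ℚ t with hp
  set P := IsLocalization.integerNormalization (nonZeroDivisors ℤ) p with hP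
  obtain ⟨b, hb⟩ := IsLocalization.integerNormalization_spec (nonZeroDivisors ℤ) p
  have hZ : Int.castRingHom ℚ = algebraMap ℤ ℚ := RingHom.ext_int _ _
  have hmap : P.map (Int.castRingHom ℚ) = C (b : ℚ) * p := by
    rw [hZ, hb.2, zsmul_eq_mul]
    simp
  have hb0 : (b : ℚ) ≠ 0 := by
    exact_mod_cast nonZeroDivisors.ne_zero hb.1
  refine ⟨P, ?_, ?_⟩
  · rw [hmap]
    have h2 : p.Separable := PerfectField.separable_iff_squarefree.mpr h1
    have h3 : IsUnit (C (b : ℚ)) := isUnit_C.mpr (isUnit_iff_ne_zero.mpr hb0)
    exact h2.unit_mul h3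
  · have h2 : aeval t (P.map (Int.castRingHom ℚ)) = 0 := by
      rw [hmap, map_mul, hp, minpoly.aeval, mul_zero]
    rw [hZ, aeval_map_algebraMap] at h2
    exact h2

/-- integral elements such that `ℤ[t]` has no nilpotents are semisimple -/
theorem sepInt_of_noNil {A : Type*} [Ring A] [IsAddTorsionFree A] {t : A} {Q : ℤ[X]}
    (hQ : Q.Monic) (hQt : aeval t Q = 0)
    (hred : ∀ (P : ℤ[X]) (n : ℕ), (aeval t P) ^ n = 0 → aeval t P = 0) : SepInt t := by
  have hZ : Int.castRingHom ℚ = algebraMap ℤ ℚ := RingHom.ext_int _ _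
  have hinj : Function.Injective (Polynomial.map (algebraMap ℤ ℚ)) :=
    Polynomial.map_injective _ (algebraMap ℤ ℚ).injective_int
  set q : ℚ[X] := Q.map (algebraMap ℤ ℚ) with hq
  have hq0 : q ≠ 0 := (hQ.map _).ne_zero
  -- the squarefree part
  obtain ⟨p, hp⟩ : ∃ p, Ideal.span {p} = (Ideal.span {q}).radical :=
    ⟨_, Ideal.span_singleton_generator _⟩
  obtain ⟨n, hn⟩ := Ideal.exists_radical_pow_le_of_fg (Ideal.span {q})
    (IsNoetherian.noetherian _)
  have hpn : q ∣ p ^ n := by
    have h2 : p ∈ (Ideal.span {q}).radical := by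
      rw [← hp]
      exact Ideal.mem_span_singleton_self p
    exact Ideal.mem_span_singleton.mp (hn (Ideal.pow_mem_pow h2 n))
  have hqp : p ∣ q := by
    have h2 : q ∈ Ideal.span {p} := by
      rw [hp]
      exact Ideal.le_radical (Ideal.mem_span_singleton_self q)
    exact Ideal.mem_span_singleton.mp h2
  have hp0 : p ≠ 0 := fun h => hq0 (zero_dvd_iff.mp (h ▸ hqp))
  have hsq : Squarefree p := by
    have h2 : IsRadical p := by
      rw [isRadical_iff_span_singleton]
      change (Ideal.span {p}).IsRadical
      rw [hp]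
      exact Ideal.radical_isRadical _
    exact h2.squarefree hp0
  obtain ⟨a, ha⟩ := hpn
  obtain ⟨b, hb0, hb⟩ := IsLocalization.integerNormalization_spec (nonZeroDivisors ℤ) p
  obtain ⟨c, hc0, hc⟩ := IsLocalization.integerNormalization_spec (nonZeroDivisors ℤ) a
  set P := IsLocalization.integerNormalization (nonZeroDivisors ℤ) p with hP
  set R := IsLocalization.integerNormalization (nonZeroDivisors ℤ) a with hR
  have hbQ : (b : ℚ) ≠ 0 := by exact_mod_cast nonZeroDivisors.ne_zero hb0
  have hb' : P.map (algebraMap ℤ ℚ) = C (b : ℚ) * p := by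
    rw [hb, zsmul_eq_mul]; simp
  have hc' : R.map (algebraMap ℤ ℚ) = C (c : ℚ) * a := by
    rw [hc, zsmul_eq_mul]; simp
  refine ⟨P, ?_, ?_⟩
  · rw [hZ, hb']
    have h3 : IsUnit (C (b : ℚ)) := isUnit_C.mpr (isUnit_iff_ne_zero.mpr hbQ)
    exact (PerfectField.separable_iff_squarefree.mpr hsq).unit_mul h3
  · have key : C c * P ^ n = Q * (C (b ^ n) * R) := by
      apply hinj
      rw [Polynomial.map_mul, Polynomial.map_mul, Polynomial.map_mul, Polynomial.map_pow, hb', hc',
        Polynomial.map_C, Polynomial.map_C, ← hq, mul_pow, ha]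
      simp only [eq_intCast, map_pow]
      ring
    have h4 := congrArg (aeval t) key
    rw [map_mul, map_mul, map_pow, aeval_C] at h4
    rw [hQt, zero_mul] at h4
    have h6 : c • (aeval t P) ^ n = 0 := by
      rw [zsmul_eq_mul, ← h4]
      simp
    have h7 : (aeval t P) ^ n = 0 := by
      exact (IsAddTorsionFree.zsmul_eq_zero_iff_right (nonZeroDivisors.ne_zero hc0)).mp h6
    exact hred P n h7

/-- integral elements of reduced torsion free rings are semisimple -/
theorem sepInt_of_reduced' {A : Type*} [CommRing A] [IsReduced A] [IsAddTorsionFree A] {t : A}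
    (ht : IsIntegral ℤ t) : SepInt t := by
  obtain ⟨Q, hQ, hQt⟩ := ht
  exact sepInt_of_noNil hQ hQt fun P n h => IsReduced.eq_zero _ ⟨n, h⟩

/-! ### Commuting semisimple endomorphisms -/

section Comm

variable {K V : Type*} [Field K] [PerfectField K] [AddCommGroup V] [Module K V]
  [FiniteDimensional K V]

theorem isSemisimple_of_mem_adjoin {s : Set (Module.End K V)}
    (hs : ∀ x ∈ s, x.IsSemisimple) (hcomm : ∀ x ∈ s, ∀ y ∈ s, Commute x y)
    {t : Module.End K V} (ht : t ∈ Algebra.adjoin K s) : t.IsSemisimple := by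
  have hc : ∀ x ∈ Algebra.adjoin K s, ∀ y ∈ Algebra.adjoin K s, Commute x y := by
    have h3 : ∀ x ∈ s, ∀ y ∈ Algebra.adjoin K s, Commute x y := by
      intro x hx y hy
      induction hy using Algebra.adjoin_induction with
      | mem y hy => exact hcomm x hx y hy
      | algebraMap c => exact (Algebra.commutes c x).symm
      | add y z _ _ hy hz => exact hy.add_right hz
      | mul y z _ _ hy hz => exact hy.mul_right hz
    intro x hx y hy
    induction hx using Algebra.adjoin_induction with
    | mem x hx => exact h3 x hx y hy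
    | algebraMap c => exact Algebra.commutes c y
    | add x z _ _ hx hz => exact hx.add_left hz
    | mul x z _ _ hx hz => exact hx.mul_left hz
  induction ht using Algebra.adjoin_induction with
  | mem x hx => exact hs x hx
  | algebraMap c =>
    have : algebraMap K (Module.End K V) c = aeval (0 : Module.End K V) (C c) := by
      rw [aeval_C]
    rw [this]
    exact Module.End.isSemisimple_zero.aeval _
  | add x y hx hy h1 h2 => exact h1.add_of_commute (hc x hx y hy) h2
  | mul x y hx hy h1 h2 => exact h1.mul_of_commute (hc x hx y hy) h2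

end Comm

theorem SepInt.isSemisimple {K V : Type*} [Field K] [CharZero K] [AddCommGroup V] [Module K V]
    {x : Module.End K V} (h : SepInt x) : x.IsSemisimple := by
  obtain ⟨P, h1, h2⟩ := h
  refine Module.End.isSemisimple_of_squarefree_aeval_eq_zero
    (p := P.map (Int.castRingHom K)) ?_ ?_
  · have h3 : P.map (Int.castRingHom K) =
        (P.map (Int.castRingHom ℚ)).map (algebraMap ℚ K) := by
      rw [Polynomial.map_map]
      congr 1
      exact RingHom.ext_int _ _
    rw [h3]
    exact (Separable.map h1).squarefree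
  · have h3 : Int.castRingHom K = algebraMap ℤ K := RingHom.ext_int _ _
    rw [h3, aeval_map_algebraMap]
    exact h2

/-- a faithful representation over the fraction field -/
theorem exists_embed (O B K : Type*) [CommRing O] [IsDomain O] [Ring B]
    [Algebra O B] [Module.Finite O B] [Module.IsTorsionFree O B] [Field K] [Algebra O K]
    [IsFractionRing O K] :
    ∃ f : B →+* Module.End K (TensorProduct O K B), Function.Injective f ∧
      ∀ c, f (algebraMap O B c) = algebraMap K _ (algebraMap O K c) := by
  let i : B →ₐ[O] TensorProduct O K B := Algebra.TensorProduct.includeRight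
  have hi : Function.Injective i := by
    refine (injective_iff_map_eq_zero i).mpr fun x hx => ?_
    have h1 : TensorProduct.mk O K B 1 x = 0 := hx
    rw [IsLocalizedModule.eq_zero_iff (nonZeroDivisors O)] at h1
    obtain ⟨c, hc⟩ := h1
    have h2 : (c : O) • x = 0 := hc
    exact (smul_eq_zero.mp h2).resolve_left (nonZeroDivisors.ne_zero c.2)
  let L : TensorProduct O K B →ₐ[K] Module.End K (TensorProduct O K B) :=
    Algebra.lmul K (TensorProduct O K B)
  refine ⟨L.toRingHom.comp i.toRingHom, fun x y hxy => ?_, fun c => ?_⟩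
  · apply hi
    have h2 := LinearMap.congr_fun hxy 1
    change i x * 1 = i y * 1 at h2
    rwa [mul_one, mul_one] at h2
  · change L (i (algebraMap O B c)) = _
    rw [AlgHom.commutes, IsScalarTower.algebraMap_apply O K (TensorProduct O K B),
      AlgHom.commutes]

theorem mem_adjoin_image {O B K E : Type*} [CommRing O] [Ring B] [Algebra O B] [Field K]
    [Algebra O K] [Ring E] [Algebra K E] {s : Set B} (f : B →+* E)
    (hf : ∀ c, f (algebraMap O B c) = algebraMap K E (algebraMap O K c)) {t : B}
    (ht : t ∈ Algebra.adjoin O s) : f t ∈ Algebra.adjoin K (f '' s) := by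
  induction ht using Algebra.adjoin_induction with
  | mem x hx => exact Algebra.subset_adjoin ⟨x, hx, rfl⟩
  | algebraMap c =>
    rw [hf]
    exact Subalgebra.algebraMap_mem _ _
  | add x y _ _ hx hy => rw [map_add]; exact add_mem hx hy
  | mul x y _ _ hx hy => rw [map_mul]; exact mul_mem hx hy

/-- **No nilpotents**: an algebra generated by commuting semisimple elements has no nilpotents. -/
theorem eq_zero_of_pow_of_mem_adjoin {O B : Type*} [CommRing O] [IsDomain O] [CharZero O] [Ring B]
    [Algebra O B] [Module.Finite O B] [Module.IsTorsionFree O B] {s : Set B}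
    (hs : ∀ x ∈ s, SepInt x) (hcomm : ∀ x ∈ s, ∀ y ∈ s, Commute x y) {t : B}
    (ht : t ∈ Algebra.adjoin O s) {n : ℕ} (hn : t ^ n = 0) : t = 0 := by
  have : CharZero (FractionRing O) :=
    charZero_of_injective_algebraMap (IsFractionRing.injective O (FractionRing O))
  obtain ⟨f, hf, hfc⟩ := exists_embed O B (FractionRing O)
  have h2 : (f t).IsSemisimple := by
    refine isSemisimple_of_mem_adjoin (s := f '' s) ?_ ?_ (mem_adjoin_image f hfc ht)
    · rintro _ ⟨x, hx, rfl⟩
      exact ((hs x hx).map f).isSemisimple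
    · rintro _ ⟨x, hx, rfl⟩ _ ⟨y, hy, rfl⟩
      exact (hcomm x hx y hy).map f
  apply hf
  rw [map_zero]
  exact Module.End.eq_zero_of_isNilpotent_isSemisimple ⟨n, by rw [← map_pow, hn, map_zero]⟩ h2

/-- a commutative ring, finite and torsion free over a domain of characteristic zero, and
generated by semisimple elements, is reduced -/
theorem isReduced_of_sepInt {O A : Type*} [CommRing O] [IsDomain O] [CharZero O] [CommRing A]
    [Algebra O A] [Module.Finite O A] [Module.IsTorsionFree O A] {s : Set A}
    (hs : ∀ x ∈ s, SepInt x) (hA : Algebra.adjoin O s = ⊤) : IsReduced A where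
  eq_zero x := by
    rintro ⟨n, hn⟩
    refine eq_zero_of_pow_of_mem_adjoin (O := O) hs (fun x _ y _ => Commute.all x y) ?_ hn
    rw [hA]
    trivial

end

end Fermat.Agent.Pet
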