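import Fermat.Agent.Pet.Reduced
import Fermat.Agent.Pet.Semi

set_option autoImplicit false

/-!
# The Hecke operators act semisimply on the parabolic characters
-/

open Polynomial
open Matrix.SpecialLinearGroup CongruenceSubgroup Module
open Fermat.Agent.ES Fermat.Agent.ESCore Fermat.Agent.ESCore.UnivG Fermat.Agent.ESCore.Gal
open Fermat.Agent.RT.Ihara Fermat.Agent.ESG
open ModularCurve.Period
open Fermat.Agent.ESCore.Univ (Idx)
open Multiplicative (toAdd ofAdd)
open scoped MatrixGroups

namespace Fermat.Agent.Pet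

noncomputable section

variable {N : ℕ} {G : Subgroup SL(2, ℤ)} (h1 : Gamma1 N ≤ G) (h0 : G ≤ Gamma0 N) (S : Finset ℕ)

/-- the operators on characters -/
def opX (B : Type*) [CommGroup B] (i : Idx N S ⊕ Gamma0 N) :
    Module.End ℤ (Additive (G →* B)) :=
  Sum.elim (fun i => (MonoidHom.toAdditive (heckeCharG (B := B) i.2.1 i.2.2.1 h1 h0)).toIntLinearMap)
    (fun δ => (MonoidHom.toAdditive (diaChar (B := B) h1 h0 δ)).toIntLinearMap) i

theorem opX_inl (B : Type*) [CommGroup B] (i : Idx N S) (χ : Additive (G →* B)) :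
    opX h1 h0 S B (Sum.inl i) χ = Additive.ofMul (heckeCharG i.2.1 i.2.2.1 h1 h0 χ.toMul) := rfl

theorem opX_inr (B : Type*) [CommGroup B] (δ : Gamma0 N) (χ : Additive (G →* B)) :
    opX h1 h0 S B (Sum.inr δ) χ = Additive.ofMul (diaChar h1 h0 δ χ.toMul) := rfl

/-- parabolic characters -/
def IsParab {B : Type*} [CommGroup B] (χ : G →* B) : Prop :=
  ∀ γ : G, ((γ : SL(2, ℤ)) : Mat).trace ^ 2 = 4 → χ γ = 1

/-- intertwining operators intertwine polynomials -/
theorem aeval_intertwine {M M' : Type*} [AddCommGroup M] [AddCommGroup M'] {s : Module.End ℤ M}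
    {t : Module.End ℤ M'} (φ : M →+ M') (h : ∀ m, φ (s m) = t (φ m)) (P : ℤ[X]) (m : M) :
    φ (aeval s P m) = aeval t P (φ m) := by
  have hpow : ∀ (k : ℕ) (m : M), φ ((s ^ k) m) = (t ^ k) (φ m) := by
    intro k
    induction k with
    | zero => intro m; rfl
    | succ k ih =>
      intro m
      rw [pow_succ, pow_succ, Module.End.mul_apply, Module.End.mul_apply, ih, h]
  induction P using Polynomial.induction_on' with
  | add p q hp hq =>
    rw [map_add, map_add, LinearMap.add_apply, LinearMap.add_apply, map_add, hp, hq]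
  | monomial n a =>
    rw [aeval_monomial, aeval_monomial, Module.End.mul_apply, Module.End.mul_apply,
      Module.algebraMap_end_apply, Module.algebraMap_end_apply, map_zsmul, hpow]

/-- restriction of scalars of endomorphisms -/
theorem aeval_restrict {K V : Type*} [CommRing K] [AddCommGroup V] [Module K V]
    (s : Module.End K V) {t : Module.End ℤ V} (h : ∀ v, t v = s v) (P : ℤ[X]) (v : V) :
    aeval t P v = aeval s P v := by
  have hpow : ∀ (k : ℕ) (m : V), (t ^ k) m = (s ^ k) m := by
    intro k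
    induction k with
    | zero => intro m; rfl
    | succ k ih =>
      intro m
      rw [pow_succ, pow_succ, Module.End.mul_apply, Module.End.mul_apply, ih, h]
  induction P using Polynomial.induction_on' with
  | add p q hp hq =>
    rw [map_add, map_add, LinearMap.add_apply, LinearMap.add_apply, hp, hq]
  | monomial n a =>
    rw [aeval_monomial, aeval_monomial, Module.End.mul_apply, Module.End.mul_apply,
      Module.algebraMap_end_apply, Module.algebraMap_end_apply, hpow]

variable [NeZero N]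

omit [NeZero N] in
theorem aeval_genS2_mem (i : Idx N S ⊕ Gamma0 N) (P : ℤ[X]) :
    aeval (genS2 h1 h0 S i) P ∈ TC h1 h0 S := by
  induction P using Polynomial.induction_on' with
  | add p q hp hq => rw [map_add]; exact add_mem hp hq
  | monomial n a =>
    rw [aeval_monomial]
    refine mul_mem ?_ (pow_mem (genS2_mem_TC S i) n)
    have h2 : algebraMap ℤ (Module.End ℂ (S2 G)) a = algebraMap ℂ (Module.End ℂ (S2 G)) a := by
      refine LinearMap.ext fun f => ?_
      rw [Module.algebraMap_end_apply]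
      exact (Int.cast_smul_eq_zsmul ℂ a f).symm
    rw [h2]
    exact (TC h1 h0 S).algebraMap_mem _

/-- the operators on cusp forms are semisimple -/
theorem sepInt_genS2 (i : Idx N S ⊕ Gamma0 N) : SepInt (genS2 h1 h0 S i) := by
  obtain ⟨π, hπ⟩ := exists_hom_S2 h1 h0 S
  have := finite_TG h1 h0 S
  obtain ⟨Q, hQ, hQt⟩ : IsIntegral ℤ (genT h1 h0 S i) := Algebra.IsIntegral.isIntegral _
  have htf : IsAddTorsionFree (Module.End ℂ (S2 G)) := by
    refine ⟨fun n hn a b hab => ?_⟩
    refine LinearMap.ext fun f => ?_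
    have h2 : n • (a f) = n • (b f) := LinearMap.congr_fun hab f
    rw [← Nat.cast_smul_eq_nsmul ℂ, ← Nat.cast_smul_eq_nsmul ℂ] at h2
    exact smul_right_injective _ (Nat.cast_ne_zero.mpr hn) h2
  refine sepInt_of_noNil hQ ?_ fun P n h => TC_eq_zero h1 h0 S (aeval_genS2_mem h1 h0 S i P) h
  have h2 := congrArg π hQt
  rw [map_zero, Polynomial.hom_eval₂, hπ] at h2
  rw [aeval_def, ← h2]
  congr 1
  exact RingHom.ext_int _ _

variable {S} in
theorem opX_per (i : Idx N S ⊕ Gamma0 N) (f : S2 G) :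
    perHomG h1 (Nat.pos_of_ne_zero (NeZero.ne N)) (genS2 h1 h0 S i f) =
      opX h1 h0 S (Multiplicative ℂ) i (perHomG h1 (Nat.pos_of_ne_zero (NeZero.ne N)) f) := by
  rcases i with i | δ
  · exact congrArg Additive.ofMul (per_hecke h1 h0 _ i.2.1 i.2.2.1 f)
  · exact congrArg Additive.ofMul (per_dia h1 h0 _ δ f)

/-- composition with the conjugation by `diag(1,-1)` -/
def jX (B : Type*) [CommGroup B] : Additive (G →* B) →+ Additive (G →* B) where
  toFun χ := Additive.ofMul (χ.toMul.comp (jG h1 h0))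
  map_zero' := rfl
  map_add' _ _ := rfl

omit [NeZero N] in
theorem opX_jX {A : Type*} [AddCommGroup A] (i : Idx N S ⊕ Gamma0 N)
    (χ : Additive (G →* Multiplicative A)) :
    jX h1 h0 (Multiplicative A) (opX h1 h0 S (Multiplicative A) i χ) =
      opX h1 h0 S (Multiplicative A) i (jX h1 h0 (Multiplicative A) χ) := by
  rcases i with i | δ
  · exact congrArg Additive.ofMul (heckeCharG_jG h1 h0 i.2.1 i.2.2.1 χ.toMul).symm
  · exact congrArg Additive.ofMul (diaChar_jG h1 h0 δ χ.toMul).symm

variable {h1 h0 S}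

theorem aeval_opX_per {i : Idx N S ⊕ Gamma0 N} {P : ℤ[X]}
    (hP : aeval (genS2 h1 h0 S i) P = 0) (f : S2 G) :
    aeval (opX h1 h0 S (Multiplicative ℂ) i) P
      (perHomG h1 (Nat.pos_of_ne_zero (NeZero.ne N)) f) = 0 := by
  let t : Module.End ℤ (S2 G) := (genS2 h1 h0 S i).toAddMonoidHom.toIntLinearMap
  have h2 := aeval_intertwine (s := t) (perHomG h1 (Nat.pos_of_ne_zero (NeZero.ne N)))
    (fun f => opX_per h1 h0 i f) P f
  rw [← h2, aeval_restrict (genS2 h1 h0 S i) (t := t) (fun _ => rfl) P f, hP]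
  exact map_zero _

theorem aeval_opX_complex {i : Idx N S ⊕ Gamma0 N} {P : ℤ[X]}
    (hP : aeval (genS2 h1 h0 S i) P = 0) {χ : G →* Multiplicative ℂ} (hχ : IsParab χ) :
    aeval (opX h1 h0 S (Multiplicative ℂ) i) P (Additive.ofMul χ) = 0 := by
  have hN := Nat.pos_of_ne_zero (NeZero.ne N)
  obtain ⟨f, g, e⟩ := exists_pair h1 h0 hN (c := addC χ) (fun γ hγ => hχ γ hγ)
  have hχ' : Additive.ofMul χ = perHomG h1 hN f + jX h1 h0 (Multiplicative ℂ) (perHomG h1 hN g) := by
    apply Additive.toMul.injective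
    ext γ
    exact DFunLike.congr_fun e (Additive.ofMul γ)
  rw [hχ', map_add, aeval_opX_per hP, zero_add, ← aeval_intertwine (jX h1 h0 (Multiplicative ℂ))
    (fun m => opX_jX h1 h0 S i m), aeval_opX_per hP, map_zero]

omit [NeZero N] in
theorem opX_comp {B B' : Type*} [CommGroup B] [CommGroup B'] (i : Idx N S ⊕ Gamma0 N) (φ : B →* B')
    (χ : Additive (G →* B)) :
    Additive.ofMul (φ.comp (opX h1 h0 S B i χ).toMul) =
      opX h1 h0 S B' i (Additive.ofMul (φ.comp χ.toMul)) := by
  rcases i with i | δ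
  · exact congrArg Additive.ofMul (heckeCharG_comp i.2.1 i.2.2.1 h1 h0 φ χ.toMul).symm
  · rfl

/-- additive maps to `ℂ` separate the points of torsion free groups -/
theorem exists_map_complex {A : Type*} [AddCommGroup A] [IsAddTorsionFree A] {x : A} (hx : x ≠ 0) :
    ∃ f : A →+ ℂ, f x ≠ 0 := by
  have hi : TensorProduct.mk ℤ ℚ A 1 x ≠ 0 := by
    intro h
    rw [IsLocalizedModule.eq_zero_iff (nonZeroDivisors ℤ)] at h
    obtain ⟨c, hc⟩ := h
    have h2 : (c : ℤ) • x = 0 := hc
    exact hx ((IsAddTorsionFree.zsmul_eq_zero_iff_right (nonZeroDivisors.ne_zero c.2)).mp h2)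
  obtain ⟨f, hf⟩ := Module.Projective.exists_dual_ne_zero ℚ hi
  refine ⟨((algebraMap ℚ ℂ : ℚ →+ ℂ).comp f.toAddMonoidHom).comp
    (TensorProduct.mk ℤ ℚ A 1).toAddMonoidHom, fun h => hf ?_⟩
  exact (algebraMap ℚ ℂ).injective (h.trans (map_zero _).symm)

/-- **The Hecke operators act semisimply on parabolic characters with values in torsion free
groups.** -/
theorem aeval_opX_eq_zero {i : Idx N S ⊕ Gamma0 N} {P : ℤ[X]}
    (hP : aeval (genS2 h1 h0 S i) P = 0) {A : Type*} [AddCommGroup A] [IsAddTorsionFree A]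
    {χ : G →* Multiplicative A} (hχ : IsParab χ) :
    aeval (opX h1 h0 S (Multiplicative A) i) P (Additive.ofMul χ) = 0 := by
  apply Additive.toMul.injective
  refine MonoidHom.ext fun γ => ?_
  by_contra hne
  obtain ⟨f, hf⟩ := exists_map_complex (x := toAdd ((aeval (opX h1 h0 S (Multiplicative A) i) P
    (Additive.ofMul χ)).toMul γ)) hne
  apply hf
  let φ : Multiplicative A →* Multiplicative ℂ := AddMonoidHom.toMultiplicative f
  let Φ : Additive (G →* Multiplicative A) →+ Additive (G →* Multiplicative ℂ) :=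
    { toFun := fun χ => Additive.ofMul (φ.comp χ.toMul)
      map_zero' := congrArg Additive.ofMul (MonoidHom.comp_one φ)
      map_add' := fun χ χ' => congrArg Additive.ofMul (MonoidHom.comp_mul φ _ _) }
  have h2 := aeval_intertwine Φ (fun m => opX_comp (h1 := h1) (h0 := h0) i φ m) P (Additive.ofMul χ)
  have h3 : aeval (opX h1 h0 S (Multiplicative ℂ) i) P (Φ (Additive.ofMul χ)) = 0 :=
    aeval_opX_complex (χ := φ.comp χ) hP (fun γ hγ => by
      rw [MonoidHom.comp_apply, hχ γ hγ, map_one])
  rw [h3] at h2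
  exact DFunLike.congr_fun (congrArg Additive.toMul h2) γ

end

end Fermat.Agent.Pet
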