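import Fermat.Agent.Pet.Reduced
import Fermat.Agent.Pet.Semi
import Fermat.Agent.ES.HeckeFinite
import Fermat.Agent.ES.VVGamma0
import Fermat.Prelude.Def_CuspForm_HeckeGaloisRepDatum

set_option autoImplicit false

/-!
# The anemic Hecke algebra of level `Γ₀(N)` is reduced
-/

open MeasureTheory Set Filter Asymptotics Polynomial
open UpperHalfPlane hiding I
open Matrix.SpecialLinearGroup CongruenceSubgroup Module
open Fermat.Agent.ES Fermat.Agent.ESCore Fermat.Agent.ESCore.UnivG Fermat.Agent.ESCore.Gal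
open Fermat.Agent.RT.Ihara
open scoped MatrixGroups Modular NNReal ENNReal ModularForm ComplexConjugate Topology Manifold

namespace Fermat.Agent.Pet

noncomputable section

variable {N : ℕ} [NeZero N]

/-- cusp forms as elements of `S2` -/
theorem cusp_mem_S2 (f : CuspForm (Gamma0 N) 2) : (⇑f : ℍ → ℂ) ∈ S2 (Gamma0 N) := by
  refine ⟨⟨CuspFormClass.holo f, fun δ => ?_, fun A => ?_⟩, fun A => ?_⟩
  · rw [MonoidHom.one_apply, Units.val_one, one_smul]
    exact cusp_slash f δ.2
  · exact (CuspFormClass.zero_at_infty_slash f A).isBoundedAtImInfty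
  · exact CuspFormClass.zero_at_infty_slash f A

/-- cusp forms as elements of `S2` -/
def toS2 (f : CuspForm (Gamma0 N) 2) : S2 (Gamma0 N) := ⟨f, cusp_mem_S2 f⟩

theorem toS2_injective : Function.Injective (toS2 : CuspForm (Gamma0 N) 2 → S2 (Gamma0 N)) :=
  fun _ _ h => DFunLike.coe_injective (congrArg Subtype.val h)

theorem toS2_hecke {l : ℕ} (hl : l.Prime) (hN : ¬ l ∣ N) (f : CuspForm (Gamma0 N) 2) :
    toS2 (CuspForm.heckeTLin 2 hl hN f) =
      heckeS2 (Gamma1_in_Gamma0 N) le_rfl hl hN (toS2 f) := by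
  apply Subtype.ext
  rw [heckeS2_coe]
  change ModularForm.heckeT 2 l ⇑f = _
  rw [heckeT_eq_sum_hdelta]
  refine Finset.sum_congr rfl fun x _ => ?_
  change _ = (⇑f : ℍ → ℂ) ∣[(2 : ℤ)] (gam N (sigmaX N l x) * hdelta l x)
  rw [SlashAction.slash_mul, gam_apply]
  have h2 : (⇑f : ℍ → ℂ) ∣[(2 : ℤ)] (mapGL ℝ (sigmaX N l x : SL(2, ℤ)) : GL (Fin 2) ℝ) = f :=
    cusp_slash f (sigmaX N l x).2
  rw [h2]

theorem toS2_dia (δ : Gamma0 N) (f : CuspForm (Gamma0 N) 2) :
    diaS2 (Gamma1_in_Gamma0 N) le_rfl δ (toS2 f) = toS2 f := by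
  apply Subtype.ext
  rw [diaS2_coe]
  exact cusp_slash f δ.2

theorem heckeT_selfAdj {u : ℍ → ℝ} (hu : Weight (Gamma0 N) u) {l : ℕ} (hl : l.Prime)
    (hN : ¬ l ∣ N) (f g : CuspForm (Gamma0 N) 2) :
    petS u (toS2 f) (toS2 (CuspForm.heckeTLin 2 hl hN g)) =
      petS u (toS2 (CuspForm.heckeTLin 2 hl hN f)) (toS2 g) := by
  rw [toS2_hecke, hecke_adj _ _ hu, toS2_dia, toS2_hecke]

/-- the complex anemic Hecke algebra -/
def TC0 (N : ℕ) : Subalgebra ℂ (Module.End ℂ (CuspForm (Gamma0 N) 2)) :=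
  Algebra.adjoin ℂ {T | ∃ (l : ℕ) (hl : l.Prime) (hlN : ¬ l ∣ N), T = CuspForm.heckeTLin 2 hl hlN}

theorem TC0_adj {u : ℍ → ℝ} (hu : Weight (Gamma0 N) u)
    {t : Module.End ℂ (CuspForm (Gamma0 N) 2)} (ht : t ∈ TC0 N) :
    ∃ t' ∈ TC0 N, ∀ f g, petS u (toS2 f) (toS2 (t g)) = petS u (toS2 (t' f)) (toS2 g) := by
  have hn : ∀ f : CuspForm (Gamma0 N) 2, Nice (⇑f) := fun f =>
    nice_S2 (Gamma1_in_Gamma0 N) (cusp_mem_S2 f)
  induction ht using Algebra.adjoin_induction with
  | mem x hx =>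
    have hx' := hx
    obtain ⟨l, hl, hN, rfl⟩ := hx
    exact ⟨_, Algebra.subset_adjoin hx', fun f g => heckeT_selfAdj hu hl hN f g⟩
  | algebraMap c =>
    refine ⟨algebraMap ℂ _ (conj c), Subalgebra.algebraMap_mem _ _, fun f g => ?_⟩
    rw [Module.algebraMap_end_apply, Module.algebraMap_end_apply]
    change pet u ⇑f ⇑(c • g) = pet u ⇑(conj c • f) ⇑g
    rw [FunLike.coe_smul, FunLike.coe_smul, pet_smul_right, pet_smul_left,
      Complex.conj_conj]
  | add x y hx hy ihx ihy =>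
    obtain ⟨x', hx', ex⟩ := ihx
    obtain ⟨y', hy', ey⟩ := ihy
    refine ⟨x' + y', add_mem hx' hy', fun f g => ?_⟩
    change pet u ⇑f ⇑(x g + y g) = pet u ⇑(x' f + y' f) ⇑g
    rw [FunLike.coe_add, FunLike.coe_add, hu.pet_add_right (hn f) (hn _) (hn _),
      hu.pet_add_left (hn _) (hn _) (hn g)]
    exact congrArg₂ (· + ·) (ex f g) (ey f g)
  | mul x y hx hy ihx ihy =>
    obtain ⟨x', hx', ex⟩ := ihx
    obtain ⟨y', hy', ey⟩ := ihy
    refine ⟨y' * x', mul_mem hy' hx', fun f g => ?_⟩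
    rw [Module.End.mul_apply, Module.End.mul_apply, ex, ey]

omit [NeZero N] in
theorem TC0_comm {s t : Module.End ℂ (CuspForm (Gamma0 N) 2)} (hs : s ∈ TC0 N)
    (ht : t ∈ TC0 N) : Commute s t := by
  have h3 : ∀ x ∈ {T | ∃ (l : ℕ) (hl : l.Prime) (hlN : ¬ l ∣ N),
      T = CuspForm.heckeTLin 2 hl hlN}, Commute x t := by
    intro x hx
    obtain ⟨l, hl, hN, rfl⟩ := hx
    induction ht using Algebra.adjoin_induction with
    | mem y hy =>
      obtain ⟨l', hl', hN', rfl⟩ := hy
      exact CuspForm.heckeTLin_comm 2 hl hN hl' hN'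
    | algebraMap c => exact (Algebra.commutes c _).symm
    | add y z _ _ hy hz => exact hy.add_right hz
    | mul y z _ _ hy hz => exact hy.mul_right hz
  induction hs using Algebra.adjoin_induction with
  | mem y hy => exact h3 y hy
  | algebraMap c => exact Algebra.commutes c t
  | add y z _ _ hy hz => exact hy.add_left hz
  | mul y z _ _ hy hz => exact hy.mul_left hz

theorem TC0_eq_zero {t : Module.End ℂ (CuspForm (Gamma0 N) 2)} (ht : t ∈ TC0 N) {n : ℕ}
    (hn : t ^ n = 0) : t = 0 := by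
  have : (Gamma0 N).FiniteIndex := inferInstance
  obtain ⟨u, hu⟩ := exists_weight (Gamma0 N)
  refine eq_zero_of_pow (B := fun f g => petS u (toS2 f) (toS2 g)) (fun f hf => ?_)
    (fun f => pet_zero_right u f) (fun f => pet_zero_left u f) (TC0 N)
    (fun t ht s hs => TC0_comm ht hs) (fun t ht => TC0_adj hu ht) ht hn
  have h2 := petS_eq_zero hu (Gamma1_in_Gamma0 N) (toS2 f) hf
  exact DFunLike.coe_injective (congrArg Subtype.val h2)

variable {S : Set ℕ} (hNS : ∀ q : ℕ, q.Prime → q ∣ N → q ∈ S)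

include hNS in
theorem mem_TC0 {t : Module.End ℂ (CuspForm (Gamma0 N) 2)}
    (ht : t ∈ CuspForm.heckeAlgebra N 2 S) : t ∈ TC0 N := by
  induction ht using Algebra.adjoin_induction with
  | mem x hx =>
    rcases hx with ⟨l, hl, hlN, -, rfl⟩ | ⟨q, hqN, hq, hqS, rfl⟩
    · exact Algebra.subset_adjoin ⟨l, hl, hlN, rfl⟩
    · exact absurd (hNS q hq hqN) hqS
  | algebraMap c =>
    have h2 : algebraMap ℤ (Module.End ℂ (CuspForm (Gamma0 N) 2)) c =
        algebraMap ℂ (Module.End ℂ (CuspForm (Gamma0 N) 2)) c := by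
      refine LinearMap.ext fun f => ?_
      rw [Module.algebraMap_end_apply, Module.algebraMap_end_apply]
      exact (Int.cast_smul_eq_zsmul ℂ c f).symm
    rw [h2]
    exact (TC0 N).algebraMap_mem _
  | add y z _ _ hy hz => exact add_mem hy hz
  | mul y z _ _ hy hz => exact mul_mem hy hz

include hNS in
/-- **The anemic Hecke algebra of level `Γ₀(N)` and weight two is reduced.** -/
theorem isReduced_heckeAlgebra : IsReduced (CuspForm.heckeAlgebra N 2 S) where
  eq_zero x := by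
    rintro ⟨n, hn⟩
    exact Subtype.ext (TC0_eq_zero (mem_TC0 hNS x.2) (congrArg Subtype.val hn))

include hNS in
/-- every element of the anemic Hecke algebra is semisimple -/
theorem sepInt_heckeAlgebra (t : CuspForm.heckeAlgebra N 2 S) : SepInt t := by
  have hred : IsReduced (CuspForm.heckeAlgebra N 2 S) := isReduced_heckeAlgebra hNS
  have hfin : Module.Finite ℤ (CuspForm.heckeAlgebra N 2 S) := moduleFinite_heckeAlgebra 2 S
  exact sepInt_of_reduced' (Algebra.IsIntegral.isIntegral t)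

include hNS in
/-- **Every finite torsion free algebra over a domain of characteristic zero, generated by the
image of the anemic Hecke algebra, is reduced.** -/
theorem isReduced_of_heckeAlgebra {O T : Type*} [CommRing O] [IsDomain O] [CharZero O] [CommRing T]
    [Algebra O T] [Module.Finite O T] [Module.IsTorsionFree O T]
    (π : CuspForm.heckeAlgebra N 2 S →+* T) (hπ : Algebra.adjoin O (Set.range π) = ⊤) :
    IsReduced T := by
  refine isReduced_of_sepInt (O := O) (s := Set.range π) ?_ hπ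
  rintro _ ⟨t, rfl⟩
  exact (sepInt_heckeAlgebra hNS t).map π

end

end Fermat.Agent.Pet
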