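import Fermat.Agent.Pet.Weight

set_option autoImplicit false

/-!
# The Petersson product attached to a weight function, and adjoints of Hecke operators
-/

open MeasureTheory Set Filter
open UpperHalfPlane hiding I
open Matrix.SpecialLinearGroup
open scoped MatrixGroups Modular NNReal ENNReal ModularForm ComplexConjugate Topology

namespace Fermat.Agent.Pet

attribute [local instance] countable_sl

noncomputable section

/-- `|f| im` is bounded -/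
def BddIm (f : ℍ → ℂ) : Prop := ∃ C : ℝ, ∀ τ, ‖f τ‖ * τ.im ≤ C

theorem norm_petersson (f g : ℍ → ℂ) (τ : ℍ) :
    ‖petersson 2 f g τ‖ = (‖f τ‖ * τ.im) * (‖g τ‖ * τ.im) := by
  rw [petersson, norm_mul, norm_mul, norm_zpow, Complex.norm_real,
    Real.norm_of_nonneg τ.im_pos.le, RCLike.norm_conj]
  have : τ.im ^ (2 : ℤ) = τ.im * τ.im := by rw [zpow_two]
  rw [this]
  ring

theorem petersson_slash_two (f g : ℍ → ℂ) {A : GL (Fin 2) ℝ} (hA : 0 < (A.det : ℝ)) (τ : ℍ) :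
    petersson 2 (f ∣[(2 : ℤ)] A) (g ∣[(2 : ℤ)] A) τ = petersson 2 f g (A • τ) := by
  rw [petersson_slash, UpperHalfPlane.σ, if_pos hA, sub_self, zpow_zero, one_mul]
  rfl

theorem norm_slash_im (f : ℍ → ℂ) {A : GL (Fin 2) ℝ} (hA : 0 < (A.det : ℝ)) (τ : ℍ) :
    ‖(f ∣[(2 : ℤ)] A) τ‖ * τ.im = ‖f (A • τ)‖ * (A • τ).im := by
  have h := congrArg norm (petersson_slash_two f f hA τ)
  rw [norm_petersson, norm_petersson] at h
  have h1 : 0 ≤ ‖(f ∣[(2 : ℤ)] A) τ‖ * τ.im := mul_nonneg (norm_nonneg _) τ.im_pos.le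
  have h2 : 0 ≤ ‖f (A • τ)‖ * (A • τ).im := mul_nonneg (norm_nonneg _) (A • τ).im_pos.le
  nlinarith [mul_self_inj h1 h2 |>.mp h]

theorem BddIm.slash {f : ℍ → ℂ} (hf : BddIm f) {A : GL (Fin 2) ℝ} (hA : 0 < (A.det : ℝ)) :
    BddIm (f ∣[(2 : ℤ)] A) := by
  obtain ⟨C, hC⟩ := hf
  exact ⟨C, fun τ => by rw [norm_slash_im f hA]; exact hC _⟩

theorem BddIm.add {f g : ℍ → ℂ} (hf : BddIm f) (hg : BddIm g) : BddIm (f + g) := by
  obtain ⟨C, hC⟩ := hf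
  obtain ⟨D, hD⟩ := hg
  refine ⟨C + D, fun τ => ?_⟩
  calc ‖(f + g) τ‖ * τ.im ≤ (‖f τ‖ + ‖g τ‖) * τ.im :=
        mul_le_mul_of_nonneg_right (norm_add_le _ _) τ.im_pos.le
    _ = ‖f τ‖ * τ.im + ‖g τ‖ * τ.im := by ring
    _ ≤ C + D := add_le_add (hC τ) (hD τ)

theorem BddIm.zero : BddIm 0 := ⟨0, fun τ => by simp⟩

theorem BddIm.sum {ι : Type*} (s : Finset ι) {f : ι → ℍ → ℂ} (h : ∀ i ∈ s, BddIm (f i)) :
    BddIm (∑ i ∈ s, f i) :=
  Finset.sum_induction _ BddIm (fun _ _ => BddIm.add) BddIm.zero h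

/-- continuous functions with bounded `|f| im` -/
structure Nice (f : ℍ → ℂ) : Prop where
  cont : Continuous f
  bdd : BddIm f

theorem Nice.zero : Nice 0 := ⟨continuous_zero, BddIm.zero⟩

theorem Nice.add {f g : ℍ → ℂ} (hf : Nice f) (hg : Nice g) : Nice (f + g) :=
  ⟨hf.cont.add hg.cont, hf.bdd.add hg.bdd⟩

theorem Nice.smul {f : ℍ → ℂ} (c : ℂ) (hf : Nice f) : Nice (c • f) := by
  refine ⟨hf.cont.const_smul c, ?_⟩
  obtain ⟨C, hC⟩ := hf.bdd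
  refine ⟨‖c‖ * C, fun τ => ?_⟩
  rw [Pi.smul_apply, norm_smul, mul_assoc]
  exact mul_le_mul_of_nonneg_left (hC τ) (norm_nonneg _)

theorem Nice.sum {ι : Type*} (s : Finset ι) {f : ι → ℍ → ℂ} (h : ∀ i ∈ s, Nice (f i)) :
    Nice (∑ i ∈ s, f i) :=
  Finset.sum_induction _ Nice (fun _ _ => Nice.add) Nice.zero h

theorem continuous_slash {f : ℍ → ℂ} (hf : Continuous f) (A : GL (Fin 2) ℝ) :
    Continuous (f ∣[(2 : ℤ)] A) := by
  have h1 : Continuous fun τ : ℍ => A • τ := continuous_const_smul A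
  have h2 : Continuous fun τ : ℍ => denom A τ := by
    change Continuous fun τ : ℍ => ((A 1 0 : ℝ) * (τ : ℂ) + (A 1 1 : ℝ) : ℂ)
    fun_prop
  change Continuous fun τ => σ A (f (A • τ)) * |A.det.val| ^ ((2 : ℤ) - 1) * denom A τ ^ (-(2 : ℤ))
  refine ((?_ : Continuous fun τ => σ A (f (A • τ))).mul continuous_const).mul ?_
  · rw [UpperHalfPlane.σ]
    split_ifs
    · exact hf.comp h1
    · exact Complex.continuous_conj.comp (hf.comp h1)
  · exact h2.zpow₀ _ fun τ => Or.inl (denom_ne_zero A τ)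

theorem Nice.slash {f : ℍ → ℂ} (hf : Nice f) {A : GL (Fin 2) ℝ} (hA : 0 < (A.det : ℝ)) :
    Nice (f ∣[(2 : ℤ)] A) := ⟨continuous_slash hf.cont A, hf.bdd.slash hA⟩

theorem Nice.petersson_bdd {f g : ℍ → ℂ} (hf : Nice f) (hg : Nice g) :
    ∃ C : ℝ, ∀ τ, ‖petersson 2 f g τ‖ ≤ C := by
  obtain ⟨C, hC⟩ := hf.bdd
  obtain ⟨D, hD⟩ := hg.bdd
  refine ⟨C * D, fun τ => ?_⟩
  rw [norm_petersson]
  have h1 : 0 ≤ ‖f τ‖ * τ.im := mul_nonneg (norm_nonneg _) τ.im_pos.le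
  have h2 : 0 ≤ ‖g τ‖ * τ.im := mul_nonneg (norm_nonneg _) τ.im_pos.le
  exact mul_le_mul (hC τ) (hD τ) h2 (h1.trans (hC τ))

theorem Nice.petersson_cont {f g : ℍ → ℂ} (hf : Nice f) (hg : Nice g) :
    Continuous (petersson 2 f g) := petersson_continuous 2 hf.cont hg.cont

variable {G : Subgroup SL(2, ℤ)} {u : ℍ → ℝ}

theorem measurable_smul_gl (A : GL (Fin 2) ℝ) : Measurable fun τ : ℍ => A • τ :=
  (continuous_const_smul A).measurable

/-- integrability of a weight times a bounded function -/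
theorem Weight.integrable (hu : Weight G u) (A : GL (Fin 2) ℝ) {f g : ℍ → ℂ} (hf : Nice f)
    (hg : Nice g) : Integrable (fun τ : ℍ => (u (A • τ) : ℂ) * petersson 2 f g τ) volume := by
  obtain ⟨C, hC⟩ := hf.petersson_bdd hg
  have h1 : Integrable (fun τ : ℍ => u (A • τ)) volume :=
    (measurePreserving_smul A (volume : Measure ℍ)).integrable_comp
      hu.int.aestronglyMeasurable |>.mpr hu.int
  have h2 : Integrable (fun τ : ℍ => (u (A • τ) : ℂ)) volume := h1.ofReal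
  exact h2.mul_bdd (c := C) (hf.petersson_cont hg).aestronglyMeasurable
    (Eventually.of_forall hC)

/-- the unfolding lemma -/
theorem Weight.hasSum_unfold (hu : Weight G u) {φ : ℍ → ℂ} (hφ : Integrable φ volume)
    {s : ℍ → ℍ} (hs : Measurable s) :
    HasSum (fun γ : G => ∫ τ, (u ((γ : SL(2, ℤ)) • s τ) : ℂ) * φ τ) (∫ τ, φ τ) := by
  refine hasSum_integral_of_dominated_convergence
    (fun (γ : G) τ => u ((γ : SL(2, ℤ)) • s τ) * ‖φ τ‖) (fun γ => ?_) (fun γ => ?_) ?_ ?_ ?_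
  · exact ((Complex.measurable_ofReal.comp (hu.meas.comp
      ((measurable_smul_sl _).comp hs))).aestronglyMeasurable).mul hφ.aestronglyMeasurable
  · refine Eventually.of_forall fun τ => ?_
    rw [norm_mul, Complex.norm_real, Real.norm_of_nonneg (hu.nonneg _)]
  · exact Eventually.of_forall fun τ => (hu.sum (s τ)).summable.mul_right _
  · have h : (fun τ => ∑' γ : G, u ((γ : SL(2, ℤ)) • s τ) * ‖φ τ‖) = fun τ => ‖φ τ‖ := by
      funext τ
      rw [tsum_mul_right, (hu.sum (s τ)).tsum_eq, one_mul]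
    rw [h]
    exact hφ.norm
  · refine Eventually.of_forall fun τ => ?_
    have h := (Complex.hasSum_ofReal.mpr (hu.sum (s τ))).mul_right (φ τ)
    rwa [Complex.ofReal_one, one_mul] at h

/-- the Petersson product -/
def pet (u : ℍ → ℝ) (f g : ℍ → ℂ) : ℂ := ∫ τ, (u τ : ℂ) * petersson 2 f g τ

/-- the local terms -/
def petT (u : ℍ → ℝ) (f g : ℍ → ℂ) (A : GL (Fin 2) ℝ) : ℂ :=
  ∫ τ, (u τ : ℂ) * ((u (A • τ) : ℂ) * petersson 2 (f ∣[(2 : ℤ)] A) g τ)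

theorem Weight.integrable_one (hu : Weight G u) {f g : ℍ → ℂ} (hf : Nice f)
    (hg : Nice g) : Integrable (fun τ : ℍ => (u τ : ℂ) * petersson 2 f g τ) volume := by
  have h := hu.integrable 1 hf hg
  simpa only [one_smul] using h

theorem Weight.pet_left (hu : Weight G u) {A : GL (Fin 2) ℝ} (hA : 0 < (A.det : ℝ)) {f g : ℍ → ℂ}
    (hf : Nice f) (hg : Nice g) (hfG : ∀ γ ∈ G, f ∣[(2 : ℤ)] (mapGL ℝ γ : GL (Fin 2) ℝ) = f) :
    HasSum (fun γ : G => petT u f g (mapGL ℝ (γ : SL(2, ℤ)) * A)) (pet u (f ∣[(2 : ℤ)] A) g) := by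
  have h := hu.hasSum_unfold (hu.integrable_one (hf.slash hA) hg) (measurable_smul_gl A)
  have e : (fun γ : G => petT u f g (mapGL ℝ (γ : SL(2, ℤ)) * A)) = fun γ : G =>
      ∫ τ, (u ((γ : SL(2, ℤ)) • A • τ) : ℂ) * ((u τ : ℂ) * petersson 2 (f ∣[(2 : ℤ)] A) g τ) := by
    funext γ
    rw [petT]
    refine integral_congr_ae (Eventually.of_forall fun τ => ?_)
    beta_reduce
    rw [SlashAction.slash_mul, hfG _ γ.2, mul_smul, ← sl_smul_eq]
    ring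
  rw [e]
  exact h

theorem Weight.pet_right (hu : Weight G u) {A : GL (Fin 2) ℝ} (hA : 0 < (A.det : ℝ)) {f g : ℍ → ℂ}
    (hf : Nice f) (hg : Nice g) (hgG : ∀ γ ∈ G, g ∣[(2 : ℤ)] (mapGL ℝ γ : GL (Fin 2) ℝ) = g) :
    HasSum (fun γ : G => petT u f g (mapGL ℝ (γ : SL(2, ℤ)) * A)⁻¹)
      (pet u f (g ∣[(2 : ℤ)] A)) := by
  have hA' : 0 < ((A⁻¹).det : ℝ) := by
    rw [map_inv, Units.val_inv_eq_inv_val]
    exact inv_pos.mpr hA
  have h := hu.hasSum_unfold (hu.integrable A⁻¹ (hf.slash hA') hg) measurable_id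
  have e0 : pet u f (g ∣[(2 : ℤ)] A) =
      ∫ τ, (u (A⁻¹ • τ) : ℂ) * petersson 2 (f ∣[(2 : ℤ)] A⁻¹) g τ := by
    rw [pet, ← integral_smul_eq_self (μ := (volume : Measure ℍ))
      (fun τ => (u (A⁻¹ • τ) : ℂ) * petersson 2 (f ∣[(2 : ℤ)] A⁻¹) g τ) (g := A)]
    refine integral_congr_ae (Eventually.of_forall fun τ => ?_)
    beta_reduce
    rw [inv_smul_smul, ← petersson_slash_two _ _ hA, ← SlashAction.slash_mul, inv_mul_cancel,
      SlashAction.slash_one]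
  rw [e0]
  have e : (fun γ : G => petT u f g (mapGL ℝ (γ : SL(2, ℤ)) * A)⁻¹) = fun γ : G =>
      ∫ τ, (u ((γ : SL(2, ℤ)) • id τ) : ℂ) *
        ((u (A⁻¹ • τ) : ℂ) * petersson 2 (f ∣[(2 : ℤ)] A⁻¹) g τ) := by
    funext γ
    have hγ : 0 < (((mapGL ℝ (γ : SL(2, ℤ)) : GL (Fin 2) ℝ)⁻¹).det : ℝ) := by simp
    rw [petT, ← integral_smul_eq_self (μ := (volume : Measure ℍ)) (fun τ => (u τ : ℂ) *
      ((u ((mapGL ℝ (γ : SL(2, ℤ)) * A)⁻¹ • τ) : ℂ) *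
      petersson 2 (f ∣[(2 : ℤ)] (mapGL ℝ (γ : SL(2, ℤ)) * A)⁻¹) g τ))
      (g := (mapGL ℝ (γ : SL(2, ℤ)) : GL (Fin 2) ℝ))]
    refine integral_congr_ae (Eventually.of_forall fun τ => ?_)
    beta_reduce
    have h1 : g ∣[(2 : ℤ)] (mapGL ℝ (γ : SL(2, ℤ)) : GL (Fin 2) ℝ) = g := hgG _ γ.2
    have h2 : petersson 2 (f ∣[(2 : ℤ)] (mapGL ℝ (γ : SL(2, ℤ)) * A)⁻¹) g
        ((mapGL ℝ (γ : SL(2, ℤ)) : GL (Fin 2) ℝ) • τ) =
        petersson 2 (f ∣[(2 : ℤ)] A⁻¹) g τ := by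
      rw [← petersson_slash_two _ _ (A := (mapGL ℝ (γ : SL(2, ℤ)) : GL (Fin 2) ℝ)) (by simp),
        ← SlashAction.slash_mul, h1, mul_inv_rev, inv_mul_cancel_right]
    rw [h2, mul_inv_rev, mul_smul, inv_smul_smul]
    rfl
  rw [e]
  exact h

end

end Fermat.Agent.Pet
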