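import Fermat.Agent.Pet.Adj

set_option autoImplicit false

/-!
# Positivity of the Petersson product, and the adjoint of a sum of slashes
-/

open MeasureTheory Set Filter
open UpperHalfPlane hiding I
open Matrix.SpecialLinearGroup
open scoped MatrixGroups Modular NNReal ENNReal ModularForm ComplexConjugate Topology

namespace Fermat.Agent.Pet

attribute [local instance] countable_sl

noncomputable section

variable {G : Subgroup SL(2, ℤ)} {u : ℍ → ℝ}

/-! ### Scalars -/

section Scalar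

variable {s : GL (Fin 2) ℝ} {c : ℝ} (hs : (s : Matrix (Fin 2) (Fin 2) ℝ) = c • 1)

include hs in
theorem scalar_ne_zero : c ≠ 0 := by
  rintro rfl
  have h := s.det_ne_zero
  have h2 : (s : Matrix (Fin 2) (Fin 2) ℝ).det = 0 := by rw [hs]; simp
  exact h h2

include hs in
theorem scalar_det : (s.det : ℝ) = c * c := by
  have h2 : (s : Matrix (Fin 2) (Fin 2) ℝ).det = c * c := by
    rw [hs, Matrix.det_fin_two]; simp
  exact h2

include hs in
theorem scalar_det_pos : 0 < (s.det : ℝ) := by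
  rw [scalar_det hs]
  exact mul_self_pos.mpr (scalar_ne_zero hs)

include hs in
theorem scalar_smul (τ : ℍ) : s • τ = τ := by
  apply UpperHalfPlane.ext
  have hc : (c : ℂ) ≠ 0 := by exact_mod_cast scalar_ne_zero hs
  rw [coe_smul_of_det_pos (scalar_det_pos hs)]
  have h1 : num s τ = c * τ := by
    simp [num, hs]
  have h2 : denom s τ = c := by
    simp [denom, hs]
  rw [h1, h2, mul_div_cancel_left₀ _ hc]

include hs in
theorem scalar_slash (f : ℍ → ℂ) : f ∣[(2 : ℤ)] s = f := by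
  funext τ
  have hc : (c : ℂ) ≠ 0 := by exact_mod_cast scalar_ne_zero hs
  have h2 : denom s τ = c := by
    simp [denom, hs]
  rw [ModularForm.slash_apply, UpperHalfPlane.σ, if_pos (scalar_det_pos hs), scalar_smul hs, h2,
    scalar_det hs, abs_mul_self]
  rw [zpow_neg]
  push_cast
  field_simp
  simp

end Scalar

theorem petT_congr (u : ℍ → ℝ) (f g : ℍ → ℂ) {A B : GL (Fin 2) ℝ} {c : ℝ}
    (h : ((A * B : GL (Fin 2) ℝ) : Matrix (Fin 2) (Fin 2) ℝ) = c • 1) :
    petT u f g B⁻¹ = petT u f g A := by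
  set s := A * B with hs
  have h1 : A = s * B⁻¹ := by rw [hs, mul_inv_cancel_right]
  have h2 : ∀ τ : ℍ, A • τ = B⁻¹ • τ := fun τ => by
    rw [h1, mul_smul, scalar_smul h]
  have h3 : f ∣[(2 : ℤ)] A = f ∣[(2 : ℤ)] B⁻¹ := by
    rw [h1, SlashAction.slash_mul, scalar_slash h]
  rw [petT, petT, h3]
  simp only [h2]

/-! ### Linearity -/

theorem petersson_add_right (f g g' : ℍ → ℂ) (τ : ℍ) :
    petersson 2 f (g + g') τ = petersson 2 f g τ + petersson 2 f g' τ := by
  simp only [petersson, Pi.add_apply]; ring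

theorem petersson_smul_right (c : ℂ) (f g : ℍ → ℂ) (τ : ℍ) :
    petersson 2 f (c • g) τ = c * petersson 2 f g τ := by
  simp only [petersson, Pi.smul_apply, smul_eq_mul]; ring

theorem Weight.pet_add_right (hu : Weight G u) {f g g' : ℍ → ℂ} (hf : Nice f) (hg : Nice g)
    (hg' : Nice g') : pet u f (g + g') = pet u f g + pet u f g' := by
  rw [pet, pet, pet, ← integral_add (hu.integrable_one hf hg) (hu.integrable_one hf hg')]
  refine integral_congr_ae (Eventually.of_forall fun τ => ?_)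
  beta_reduce
  rw [petersson_add_right, mul_add]

theorem pet_smul_right (u : ℍ → ℝ) (c : ℂ) (f g : ℍ → ℂ) : pet u f (c • g) = c * pet u f g := by
  rw [pet, pet, ← integral_const_mul]
  refine integral_congr_ae (Eventually.of_forall fun τ => ?_)
  beta_reduce
  rw [petersson_smul_right]
  ring

theorem pet_conj (u : ℍ → ℝ) (f g : ℍ → ℂ) : conj (pet u f g) = pet u g f := by
  rw [pet, pet, ← integral_conj]
  refine integral_congr_ae (Eventually.of_forall fun τ => ?_)
  beta_reduce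
  rw [petersson_symm 2 f g, map_mul, Complex.conj_ofReal]

theorem pet_smul_left (u : ℍ → ℝ) (c : ℂ) (f g : ℍ → ℂ) :
    pet u (c • f) g = conj c * pet u f g := by
  rw [← pet_conj, pet_smul_right, map_mul, pet_conj]

theorem Weight.pet_add_left (hu : Weight G u) {f f' g : ℍ → ℂ} (hf : Nice f) (hf' : Nice f')
    (hg : Nice g) : pet u (f + f') g = pet u f g + pet u f' g := by
  rw [← pet_conj, hu.pet_add_right hg hf hf', map_add, pet_conj, pet_conj]

theorem pet_zero_right (u : ℍ → ℝ) (f : ℍ → ℂ) : pet u f 0 = 0 := by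
  have h := pet_smul_right u 0 f 0
  rwa [zero_smul, zero_mul] at h

theorem pet_zero_left (u : ℍ → ℝ) (f : ℍ → ℂ) : pet u 0 f = 0 := by
  rw [← pet_conj, pet_zero_right, map_zero]

theorem Weight.pet_sum_right (hu : Weight G u) {ι : Type*} (s : Finset ι) {f : ℍ → ℂ}
    {g : ι → ℍ → ℂ} (hf : Nice f) (hg : ∀ i, Nice (g i)) :
    pet u f (∑ i ∈ s, g i) = ∑ i ∈ s, pet u f (g i) := by
  classical
  induction s using Finset.induction_on with
  | empty => rw [Finset.sum_empty, Finset.sum_empty, pet_zero_right]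
  | insert a s ha ih =>
    rw [Finset.sum_insert ha, Finset.sum_insert ha,
      hu.pet_add_right hf (hg a) (Nice.sum _ fun i _ => hg i), ih]

theorem Weight.pet_sum_left (hu : Weight G u) {ι : Type*} (s : Finset ι) {f : ι → ℍ → ℂ}
    {g : ℍ → ℂ} (hf : ∀ i, Nice (f i)) (hg : Nice g) :
    pet u (∑ i ∈ s, f i) g = ∑ i ∈ s, pet u (f i) g := by
  rw [← pet_conj, hu.pet_sum_right s hg hf, map_sum]
  exact Finset.sum_congr rfl fun i _ => pet_conj _ _ _

/-! ### Adjoints -/

theorem hasSum_prod_fintype {ι κ : Type*} [Fintype κ] {a : ι × κ → ℂ} {b : κ → ℂ}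
    (h : ∀ k, HasSum (fun i => a (i, k)) (b k)) : HasSum a (∑ k, b k) := by
  classical
  have h2 : ∀ k, HasSum (fun p : ι × κ => if p.2 = k then a p else 0) (b k) := by
    intro k
    refine ((Prod.mk_left_injective k).hasSum_iff ?_).mp ?_
    · rintro ⟨i, k'⟩ hp
      refine if_neg fun e => hp ⟨i, ?_⟩
      rw [← e]
    · simpa [Function.comp_def] using h k
  have h3 := hasSum_sum (s := Finset.univ) fun k _ => h2 k
  have e : (fun p : ι × κ => ∑ k, if p.2 = k then a p else 0) = a := by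
    funext p
    rw [Finset.sum_ite_eq Finset.univ p.2 fun _ => a p, if_pos (Finset.mem_univ _)]
  rwa [e] at h3

/-- **The adjoint of a sum of slashes.** -/
theorem Weight.adjoint (hu : Weight G u) {X X' : Type*} [Fintype X] [Fintype X']
    {δ : X → GL (Fin 2) ℝ} {δ' : X' → GL (Fin 2) ℝ} (hδ : ∀ x, 0 < ((δ x).det : ℝ))
    (hδ' : ∀ x, 0 < ((δ' x).det : ℝ)) (e : G × X ≃ G × X')
    (he : ∀ p, ∃ c : ℝ, (((mapGL ℝ ((e p).1 : SL(2, ℤ)) * δ' (e p).2) *
      (mapGL ℝ (p.1 : SL(2, ℤ)) * δ p.2) : GL (Fin 2) ℝ) : Matrix (Fin 2) (Fin 2) ℝ) = c • 1)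
    {f g : ℍ → ℂ} (hf : Nice f) (hg : Nice g)
    (hfG : ∀ γ ∈ G, f ∣[(2 : ℤ)] (mapGL ℝ γ : GL (Fin 2) ℝ) = f)
    (hgG : ∀ γ ∈ G, g ∣[(2 : ℤ)] (mapGL ℝ γ : GL (Fin 2) ℝ) = g) :
    pet u f (∑ x, g ∣[(2 : ℤ)] δ x) = pet u (∑ x, f ∣[(2 : ℤ)] δ' x) g := by
  rw [hu.pet_sum_right _ hf fun x => hg.slash (hδ x),
    hu.pet_sum_left _ (fun x => hf.slash (hδ' x)) hg]
  have h1 := hasSum_prod_fintype (a := fun p : G × X =>
    petT u f g (mapGL ℝ (p.1 : SL(2, ℤ)) * δ p.2)⁻¹) fun x => hu.pet_right (hδ x) hf hg hgG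
  have h2 := hasSum_prod_fintype (a := fun p : G × X' =>
    petT u f g (mapGL ℝ (p.1 : SL(2, ℤ)) * δ' p.2)) fun x => hu.pet_left (hδ' x) hf hg hfG
  have h3 := (Equiv.hasSum_iff e).mpr h2
  have e2 : (fun p : G × X => petT u f g (mapGL ℝ (p.1 : SL(2, ℤ)) * δ p.2)⁻¹) =
      (fun p : G × X' => petT u f g (mapGL ℝ (p.1 : SL(2, ℤ)) * δ' p.2)) ∘ e := by
    funext p
    obtain ⟨c, hc⟩ := he p
    exact petT_congr u f g hc
  rw [e2] at h1
  exact h1.unique h3

/-! ### Positivity -/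

instance isOpenPos_volume : (volume : Measure ℍ).IsOpenPosMeasure := by
  have h1 : ((volume : Measure ℂ).comap UpperHalfPlane.coe).IsOpenPosMeasure :=
    Measure.IsOpenPosMeasure.comap _ isOpenEmbedding_coe
  rw [volume_def]
  refine Measure.AbsolutelyContinuous.isOpenPosMeasure (withDensity_absolutelyContinuous' ?_ ?_)
  · refine Measurable.aemeasurable ?_
    have h2 : Measurable fun z : ℍ => NNReal.mk z.im z.im_pos.le :=
      UpperHalfPlane.continuous_im.measurable.subtype_mk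
    exact ((measurable_const.div h2).pow_const 2).coe_nnreal_ennreal
  · refine Eventually.of_forall fun z => ?_
    have hz : (0 : ℝ) < z.im := z.im_pos
    have h3 : (NNReal.mk z.im z.im_pos.le : ℝ≥0) ≠ 0 := by
      intro h
      exact hz.ne' (congrArg NNReal.toReal h)
    have h4 : ((1 / NNReal.mk z.im z.im_pos.le : ℝ≥0) ^ 2) ≠ 0 := by
      exact pow_ne_zero _ (div_ne_zero one_ne_zero h3)
    exact_mod_cast h4

theorem petersson_self (f : ℍ → ℂ) (τ : ℍ) :
    petersson 2 f f τ = (((‖f τ‖ * τ.im) ^ 2 : ℝ) : ℂ) := by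
  rw [petersson, mul_comm (conj (f τ)), Complex.mul_conj, Complex.normSq_eq_norm_sq]
  push_cast
  rw [mul_pow]
  norm_cast

/-- **Positivity of the Petersson product.** -/
theorem Weight.eq_zero (hu : Weight G u) {f : ℍ → ℂ} (hf : Nice f)
    (hfG : ∀ γ ∈ G, f ∣[(2 : ℤ)] (mapGL ℝ γ : GL (Fin 2) ℝ) = f) (h : pet u f f = 0) : f = 0 := by
  set P : ℍ → ℝ := fun τ => (‖f τ‖ * τ.im) ^ 2 with hP
  have hPG : ∀ (γ : G) (τ : ℍ), P ((γ : SL(2, ℤ)) • τ) = P τ := by
    intro γ τ
    rw [hP]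
    beta_reduce
    rw [sl_smul_eq, ← norm_slash_im f (A := mapGL ℝ (γ : SL(2, ℤ))) (by simp), hfG _ γ.2]
  have hint : Integrable (fun τ => u τ * P τ) volume := by
    have h1 := (hu.integrable_one hf hf).re
    refine h1.congr (Eventually.of_forall fun τ => ?_)
    beta_reduce
    rw [petersson_self, ← Complex.ofReal_mul]
    exact Complex.ofReal_re _
  have h1 : ∫ τ, u τ * P τ = 0 := by
    have h2 : pet u f f = ((∫ τ, u τ * P τ : ℝ) : ℂ) := by
      rw [pet, ← integral_complex_ofReal]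
      refine integral_congr_ae (Eventually.of_forall fun τ => ?_)
      beta_reduce
      rw [petersson_self, Complex.ofReal_mul]
    rw [h2] at h
    exact_mod_cast h
  rw [integral_eq_zero_iff_of_nonneg (fun τ => mul_nonneg (hu.nonneg τ) (sq_nonneg _)) hint] at h1
  have h3 : ∀ᵐ τ : ℍ, ∀ γ : G, u ((γ : SL(2, ℤ)) • τ) * P τ = 0 := by
    rw [ae_all_iff]
    intro γ
    have h4 := (measurePreserving_smul (mapGL ℝ (γ : SL(2, ℤ)) : GL (Fin 2) ℝ)
      (volume : Measure ℍ)).quasiMeasurePreserving.ae h1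
    filter_upwards [h4] with τ hτ
    have h5 : u ((γ : SL(2, ℤ)) • τ) * P ((γ : SL(2, ℤ)) • τ) = 0 := hτ
    rwa [hPG] at h5
  have h6 : P =ᵐ[volume] 0 := by
    filter_upwards [h3] with τ hτ
    have h7 := (hu.sum τ).mul_right (P τ)
    simp only [hτ] at h7
    have h8 := h7.unique hasSum_zero
    rwa [one_mul] at h8
  have hPc : Continuous P := ((hf.cont.norm).mul UpperHalfPlane.continuous_im).pow 2
  have h9 : P = 0 := (Continuous.ae_eq_iff_eq volume hPc continuous_zero).mp h6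
  funext τ
  have h10 := congrFun h9 τ
  have h11 : ‖f τ‖ * τ.im = 0 := pow_eq_zero_iff two_ne_zero |>.mp h10
  exact norm_eq_zero.mp ((mul_eq_zero.mp h11).resolve_right τ.im_ne_zero)

end

end Fermat.Agent.Pet
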