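import Mathlib

set_option autoImplicit false

/-!
# The standard fundamental domain has finite volume
-/

open MeasureTheory Set
open UpperHalfPlane hiding I
open scoped MatrixGroups Modular NNReal ENNReal

namespace Fermat.Agent.Pet

/-- a box containing the standard fundamental domain -/
def box : Set ℍ := {τ | |τ.re| ≤ 1 / 2 ∧ 1 / 2 ≤ τ.im}

theorem fd_subset_box : (𝒟 : Set ℍ) ⊆ box := by
  intro τ hτ
  have h := ModularGroup.three_le_four_mul_im_sq_of_mem_fd hτ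
  refine ⟨hτ.2, ?_⟩
  have := τ.im_pos
  nlinarith

theorem lintegral_inv_sq_lt_top :
    ∫⁻ y : ℝ in Ici (1 / 2), ((((1 : ℝ≥0) / ‖y‖₊) ^ 2 : ℝ≥0) : ℝ≥0∞) < ⊤ := by
  have h := integrableOn_Ioi_rpow_of_lt (a := -2) (by norm_num) (c := (1 / 4 : ℝ)) (by norm_num)
  have h2 : IntegrableOn (fun t : ℝ => t ^ (-2 : ℝ)) (Ici (1 / 2)) :=
    h.mono_set (fun x (hx : 1 / 2 ≤ x) => by
      change (1 / 4 : ℝ) < x
      linarith)
  have h3 := h2.2
  refine lt_of_le_of_lt (setLIntegral_mono' measurableSet_Ici fun y hy => ?_) h3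
  have hy0 : (0 : ℝ) < y := lt_of_lt_of_le (by norm_num) hy
  rw [enorm_eq_nnnorm]
  norm_cast
  rw [← NNReal.coe_le_coe]
  push_cast
  rw [Real.norm_of_nonneg hy0.le, Real.norm_of_nonneg (by positivity), zpow_neg, one_div, inv_pow]
  exact le_of_eq (by norm_cast)

theorem volume_box_lt_top : volume box < ⊤ := by
  rw [volume_eq_lintegral]
  have hsub : (UpperHalfPlane.coe '' box) ⊆ Complex.measurableEquivRealProd ⁻¹'
      (Icc (-1 / 2 : ℝ) (1 / 2) ×ˢ Ici (1 / 2)) := by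
    rintro _ ⟨τ, ⟨h1, h2⟩, rfl⟩
    rw [abs_le] at h1
    refine ⟨⟨?_, h1.2⟩, h2⟩
    change (-1 / 2 : ℝ) ≤ τ.re
    linarith [h1.1]
  refine lt_of_le_of_lt (lintegral_mono_set hsub) ?_
  have hmp := Complex.volume_preserving_equiv_real_prod
  have key := hmp.setLIntegral_comp_preimage_emb Complex.measurableEquivRealProd.measurableEmbedding
    (fun p : ℝ × ℝ => ((((1 : ℝ≥0) / ‖p.2‖₊) ^ 2 : ℝ≥0) : ℝ≥0∞))
    (Icc (-1 / 2 : ℝ) (1 / 2) ×ˢ Ici (1 / 2))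
  have e : ∀ z : ℂ, ((((1 : ℝ≥0) / ‖(Complex.measurableEquivRealProd z).2‖₊) ^ 2 : ℝ≥0) : ℝ≥0∞) =
      ((((1 : ℝ≥0) / ‖z.im‖₊) ^ 2 : ℝ≥0) : ℝ≥0∞) := fun z => rfl
  simp only [e] at key
  rw [key, Measure.volume_eq_prod, ← Measure.prod_restrict]
  have h5 := lintegral_prod_mul (μ := (volume : Measure ℝ).restrict (Icc (-1 / 2 : ℝ) (1 / 2)))
    (ν := (volume : Measure ℝ).restrict (Ici (1 / 2))) (f := fun _ => (1 : ℝ≥0∞))
    (g := fun y : ℝ => ((((1 : ℝ≥0) / ‖y‖₊) ^ 2 : ℝ≥0) : ℝ≥0∞)) aemeasurable_const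
    (by fun_prop)
  simp only [one_mul] at h5
  rw [h5]
  refine ENNReal.mul_lt_top ?_ lintegral_inv_sq_lt_top
  rw [lintegral_const, one_mul, Measure.restrict_apply_univ, Real.volume_Icc]
  exact ENNReal.ofReal_lt_top

theorem volume_fd_lt_top : volume (𝒟 : Set ℍ) < ⊤ :=
  lt_of_le_of_lt (measure_mono fd_subset_box) volume_box_lt_top

end Fermat.Agent.Pet
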