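import Fermat.Agent.Pet.Par
import Fermat.Agent.RT.HFinal

set_option autoImplicit false

/-!
# Semisimplicity of the Hecke operators on Hecke modules
-/

open Polynomial IsLocalRing
open Matrix.SpecialLinearGroup CongruenceSubgroup Module
open Fermat.Agent.ES Fermat.Agent.ESCore Fermat.Agent.ESCore.UnivG Fermat.Agent.ESCore.Gal
open Fermat.Agent.RT Fermat.Agent.RT.Ihara Fermat.Agent.ESG
open ModularCurve.Period
open Fermat.Agent.ESCore.Univ (Idx)
open Multiplicative (toAdd ofAdd)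
open scoped MatrixGroups

namespace Fermat.Agent.Pet

noncomputable section

variable {N : ℕ} {G : Subgroup SL(2, ℤ)} {h1 : Gamma1 N ≤ G} {h0 : G ≤ Gamma0 N} {S : Finset ℕ}

theorem isParab_of_trace_two {A : Type*} [AddCommGroup A] [IsAddTorsionFree A]
    {χ : G →* Multiplicative A}
    (h : ∀ γ : G, (γ : SL(2, ℤ)) 0 0 + (γ : SL(2, ℤ)) 1 1 = 2 → χ γ = 1) : IsParab χ := by
  intro γ hγ
  have htr : ((γ * γ : G) : SL(2, ℤ)) 0 0 + ((γ * γ : G) : SL(2, ℤ)) 1 1 = 2 := by
    have hdet := (γ : SL(2, ℤ)).det_coe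
    rw [Matrix.det_fin_two] at hdet
    rw [Matrix.trace_fin_two] at hγ
    rw [Subgroup.coe_mul, Matrix.SpecialLinearGroup.coe_mul, Matrix.mul_apply, Matrix.mul_apply,
      Fin.sum_univ_two, Fin.sum_univ_two]
    linear_combination hγ - 2 * hdet
  have h2 := h _ htr
  rw [map_mul] at h2
  have h3 : (2 : ℕ) • toAdd (χ γ) = 0 := by
    rw [two_nsmul]
    exact h2
  have h4 : toAdd (χ γ) = 0 := by
    have := nsmul_right_injective (M := A) two_ne_zero (h3.trans (nsmul_zero 2).symm)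
    exact this
  exact h4

variable [NeZero N]

section

variable {R : Type} [Ring R] {M A : Type} [AddCommGroup M] [Module R M]
  [AddCommGroup A] [IsAddTorsionFree A] {ι : M →+ Additive (G →* Multiplicative A)}
  {τ : Idx N S ⊕ Gamma0 N → R}

/-- **The operators of a parabolic Hecke module are semisimple.** -/
theorem sepInt_of_heckeModule (H : HeckeModule h1 h0 S ι τ) (hpar : ∀ x, IsParab (ι x).toMul)
    (i : Idx N S ⊕ Gamma0 N) : SepInt (τ i) := by
  obtain ⟨P, hP, hP'⟩ := sepInt_genS2 h1 h0 S i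
  refine ⟨P, hP, H.faithful _ fun x => ?_⟩
  let s : Module.End ℤ M := (DistribSMul.toAddMonoidHom M (τ i)).toIntLinearMap
  have hs : ∀ x, s x = τ i • x := fun x => rfl
  have hι : ∀ x, ι (s x) = opX h1 h0 S (Multiplicative A) i (ι x) := by
    intro x
    apply Additive.toMul.injective
    rcases i with i | δ
    · exact H.hecke i x
    · exact H.dia δ x
  have h2 : ∀ (Q : ℤ[X]) (x : M), aeval s Q x = (aeval (τ i) Q) • x := by
    have hpow : ∀ (k : ℕ) (m : M), (s ^ k) m = (τ i ^ k) • m := by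
      intro k
      induction k with
      | zero => intro m; rw [pow_zero, pow_zero, one_smul]; rfl
      | succ k ih =>
        intro m
        rw [pow_succ, pow_succ, Module.End.mul_apply, mul_smul, ih, hs]
    intro Q x
    induction Q using Polynomial.induction_on' with
    | add p q hp hq => rw [map_add, map_add, LinearMap.add_apply, add_smul, hp, hq]
    | monomial n a =>
      rw [aeval_monomial, aeval_monomial, Module.End.mul_apply, mul_smul,
        Module.algebraMap_end_apply, hpow, algebraMap_smul]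
  rw [← h2]
  apply H.injective
  rw [aeval_intertwine ι hι P x, map_zero]
  exact aeval_opX_eq_zero (χ := (ι x).toMul) hP' (hpar x)

end


theorem adjoin_range_TG {O B : Type*} [CommRing O] [Ring B] [Algebra O B]
    (π : TG h1 h0 S →+* B) : Algebra.adjoin O (Set.range π) =
      Algebra.adjoin O (Set.range fun i => π (genT h1 h0 S i)) := by
  apply le_antisymm
  · refine Algebra.adjoin_le ?_
    rintro _ ⟨t, rfl⟩
    change π t ∈ Algebra.adjoin O (Set.range fun i => π (genT h1 h0 S i))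
    induction t using TG_induction with
    | hg i => exact Algebra.subset_adjoin ⟨i, rfl⟩
    | hz n =>
      rw [map_intCast]
      exact intCast_mem _ n
    | ha x y hx hy =>
      rw [map_add]
      exact add_mem hx hy
    | hm x y hx hy =>
      rw [map_mul]
      exact mul_mem hx hy
  · refine Algebra.adjoin_mono ?_
    rintro _ ⟨i, rfl⟩
    exact ⟨_, rfl⟩


/-- **No nilpotents in the algebra generated by the image of the Hecke algebra.** -/
theorem eq_zero_of_pow_TG {O B : Type*} [CommRing O] [IsDomain O] [CharZero O] [Ring B]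
    [Algebra O B] [Module.Finite O B] [Module.IsTorsionFree O B] (π : TG h1 h0 S →+* B)
    (hπ : ∀ i, SepInt (π (genT h1 h0 S i))) {t : B}
    (ht : t ∈ Algebra.adjoin O (Set.range π)) {n : ℕ} (hn : t ^ n = 0) : t = 0 := by
  rw [adjoin_range_TG] at ht
  refine eq_zero_of_pow_of_mem_adjoin ?_ ?_ ht hn
  · rintro _ ⟨i, rfl⟩
    exact hπ i
  · rintro _ ⟨i, rfl⟩ _ ⟨j, rfl⟩
    exact (Commute.all _ _).map π

section TW

variable {𝒪 : Type} [CommRing 𝒪] [IsDomain 𝒪] [IsDiscreteValuationRing 𝒪]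
variable [IsAdicComplete (maximalIdeal 𝒪) 𝒪] [CharZero 𝒪]
variable {D : Type} [CommGroup D] [Fintype D] {ψ : (ZMod N)ˣ →* D}
  (hψ : Function.Surjective ψ) {I : Set ℕ} {a : ℕ → 𝒪} {d : ℕ}
  {e : HM 𝒪 (le_GK (ψ := ψ)) GK_le I a ≃ₗ[𝒪] (Fin d → MonoidAlgebra 𝒪 D)}
  {Φ : MvPolynomial ℕ 𝒪 →ₐ[𝒪] Matrix (Fin d) (Fin d) (MonoidAlgebra 𝒪 D)}
  (hΦ : ∀ n (v w : HM 𝒪 (le_GK (ψ := ψ)) GK_le I a), w.1 = hec le_GK GK_le n v.1 →
        e w = (Φ (MvPolynomial.X n)).mulVec (e v))

theorem iotaH_isParab (hNE : NonEisP N I a) (x : Fin d → MonoidAlgebra 𝒪 D) :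
    IsParab (iotaH e x).toMul := by
  have : (GK ψ).FiniteIndex := Subgroup.finiteIndex_of_le le_GK
  obtain ⟨v, rfl⟩ := e.surjective x
  rw [iotaH_apply]
  refine isParab_of_trace_two fun γ hγ => ?_
  have h2 := hNE.zero le_GK GK_le v.2 γ hγ
  rw [toChar_apply, h2]
  rfl

include hΦ hψ in
/-- **The Hecke algebra acts semisimply on the Taylor–Wiles module.** -/
theorem exists_pi_sepInt (he : ∀ x v, e (actD (actM hψ I a 𝒪) x v) = x • e v)
    (hNE : NonEisP N I a) (h8 : IsUnit (8 : 𝒪)) (S : Finset ℕ) :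
    ∃ π : TG (le_GK (ψ := ψ)) GK_le S →+* Matrix (Fin d) (Fin d) (MonoidAlgebra 𝒪 D),
      (∀ i, π (genT le_GK GK_le S (Sum.inl i)) = Φ (MvPolynomial.X i.1)) ∧
      (∀ δ, π (genT le_GK GK_le S (Sum.inr δ)) =
        Matrix.scalar (Fin d) (MonoidAlgebra.single (ψ (dE N δ)) (1 : 𝒪))) ∧
      (∀ i, SepInt (π (genT le_GK GK_le S i))) ∧
      ∀ t ∈ Algebra.adjoin 𝒪 (Set.range π), ∀ n : ℕ, t ^ n = 0 → t = 0 := by
  obtain ⟨π, h1, h2⟩ := exists_pi hψ hΦ he hNE h8 S
  have H : HeckeModule le_GK GK_le S (iotaH e) (tauH Φ ψ S) :=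
    { faithful := fun r hr => LinearMap.ext hr
      injective := iotaH_injective
      par := iotaH_par hNE h8
      hecke := fun i x => by
        have h2 : tauH Φ ψ S (Sum.inl i) • x = (Φ (MvPolynomial.X i.1)).mulVec x := by
          change Matrix.toLin' (Φ (MvPolynomial.X i.1)) x = _
          rw [Matrix.toLin'_apply]
        rw [h2, iotaH_hecke hΦ i.2.1 i.2.2.1]
      dia := fun δ x => iotaH_dia hψ he δ x }
  have hs : ∀ i, SepInt (π (genT le_GK GK_le S i)) := by
    intro i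
    have h3 := sepInt_of_heckeModule H (iotaH_isParab hNE) i
    have h4 : (LinearMap.toMatrixAlgEquiv' (R := MonoidAlgebra 𝒪 D) (n := Fin d))
        (tauH Φ ψ S i) = π (genT le_GK GK_le S i) := by
      rcases i with i | δ
      · rw [h1]
        exact LinearMap.toMatrix'_toLin' _
      · rw [h2]
        change LinearMap.toMatrixAlgEquiv' ((MonoidAlgebra.single (ψ (dE N δ)) (1 : 𝒪)) • 1) = _
        rw [map_smul, map_one, Matrix.scalar_apply, Matrix.smul_one_eq_diagonal]
    rw [← h4]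
    exact h3.map ((LinearMap.toMatrixAlgEquiv' (R := MonoidAlgebra 𝒪 D) (n := Fin d)) :
      _ ≃ₐ[MonoidAlgebra 𝒪 D] _).toRingEquiv.toRingHom
  refine ⟨π, h1, h2, hs, fun t ht n hn => eq_zero_of_pow_TG π hs ht hn⟩

end TW

end

end Fermat.Agent.Pet
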