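import Fermat.Agent.Pet.Adj2
import Fermat.Agent.ESCore.SuppG
import Fermat.Agent.RT.Bridge

set_option autoImplicit false

/-!
# Adjoints of the Hecke operators on cusp forms of weight two
-/

open MeasureTheory Set Filter Asymptotics
open UpperHalfPlane hiding I
open Matrix.SpecialLinearGroup CongruenceSubgroup
open Fermat.Agent.ES Fermat.Agent.ESCore Fermat.Agent.ESCore.UnivG Fermat.Agent.ESCore.Gal
open Fermat.Agent.RT.Ihara
open Fermat.Agent.ESCore.Univ (Idx)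
open scoped MatrixGroups Modular NNReal ENNReal ModularForm ComplexConjugate Topology Manifold

namespace Fermat.Agent.Pet

noncomputable section

variable {N : ℕ} {G : Subgroup SL(2, ℤ)}

/-! ### Cusp forms are nice -/

theorem decays_bdd {w : ℝ} (hw : 0 < w) {h : ℍ → ℂ} (hh : Decays w h) :
    (fun τ : ℍ => ‖h τ‖ * τ.im) =O[atImInfty] fun _ => (1 : ℝ) := by
  have h1 := hh.zero.exp_decay_atImInfty hw hh.per hh.holo hh.zero.isBoundedAtImInfty
  have h2 : (fun τ : ℍ => ‖h τ‖ * τ.im) =O[atImInfty]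
      fun τ => Real.exp (-2 * Real.pi * τ.im / w) * τ.im := h1.norm_left.mul (isBigO_refl _ _)
  refine h2.trans ?_
  have h3 : (fun t : ℝ => Real.exp (-2 * Real.pi * t / w) * t) =O[atTop] fun _ => (1 : ℝ) := by
    have hc : 0 < 2 * Real.pi / w := by positivity
    have h4 := isLittleO_exp_neg_mul_rpow_atTop (a := 2 * Real.pi / w) hc (-1)
    have h5 : (fun t : ℝ => Real.exp (-2 * Real.pi * t / w) * t) =ᶠ[atTop]
        fun t => Real.exp (-(2 * Real.pi / w) * t) * t := by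
      refine Eventually.of_forall fun t => ?_
      beta_reduce
      congr 2
      ring
    refine h5.trans_isBigO ?_
    have h6 : (fun t : ℝ => Real.exp (-(2 * Real.pi / w) * t) * t) =O[atTop]
        fun t => t ^ (-1 : ℝ) * t := h4.isBigO.mul (isBigO_refl _ _)
    refine h6.trans (EventuallyEq.isBigO ?_)
    filter_upwards [eventually_gt_atTop 0] with t ht
    rw [Real.rpow_neg_one, inv_mul_cancel₀ ht.ne']
  exact h3.comp_tendsto tendsto_comap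

theorem nice_S2 [NeZero N] (h1 : Gamma1 N ≤ G) {f : ℍ → ℂ} (hf : f ∈ S2 G) : Nice f := by
  have hN := Nat.pos_of_ne_zero (NeZero.ne N)
  have : G.FiniteIndex := Subgroup.finiteIndex_of_le h1
  have hc : Continuous f := hf.1.1.continuous
  refine ⟨hc, ?_⟩
  have h2 : ∀ (g : SL(2, ℤ)) (τ : ℍ), ‖f (g • τ)‖ * (g • τ).im = ‖(f ∣[(2 : ℤ)] g) τ‖ * τ.im := by
    intro g τ
    rw [sl_smul_eq, ← norm_slash_im f (A := mapGL ℝ g) (by simp)]
    rfl
  obtain ⟨C, hC⟩ := ModularGroup.exists_bound_of_subgroup_invariant_of_isBigO (t := 0)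
    (f := fun τ => ‖f τ‖ * τ.im) (hc.norm.mul UpperHalfPlane.continuous_im) le_rfl
    (fun g => by
      simp only [h2, Real.rpow_zero]
      exact decays_bdd (by exact_mod_cast hN) (S2_decays hN h1 hf g)) (Γ := G)
    (fun g hg τ => by
      rw [h2, S2_inv hf ⟨g, hg⟩])
  refine ⟨C, fun τ => ?_⟩
  have h3 := hC τ
  rw [Real.rpow_zero, mul_one] at h3
  exact (le_abs_self _).trans h3

theorem S2_inv' {f : ℍ → ℂ} (hf : f ∈ S2 G) :
    ∀ γ ∈ G, f ∣[(2 : ℤ)] (mapGL ℝ γ : GL (Fin 2) ℝ) = f := fun γ hγ => S2_inv hf ⟨γ, hγ⟩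

/-! ### The adjugate of the Hecke correspondence -/

/-- the representatives of `T_l` -/
def DX (N l : ℕ) (x : Option (Fin l)) : Mat := ((sigmaX N l x : SL(2, ℤ)) : Mat) * Mx l x

theorem DX_det (N l : ℕ) (x : Option (Fin l)) : (DX N l x).det = l := by
  rw [DX, Matrix.det_mul, (sigmaX N l x : SL(2, ℤ)).det_coe, one_mul, Mx_det]

theorem sl_inv_mul (g : SL(2, ℤ)) (M : Mat) : ((g⁻¹ : SL(2, ℤ)) : Mat) * ((g : Mat) * M) = M := by
  rw [← mul_assoc, ← sl_coe_mul, inv_mul_cancel]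
  exact one_mul _

theorem exists_DX {l : ℕ} (hl : l.Prime) (M : Mat) (hM : M.det = l) :
    ∃ (x : Option (Fin l)) (h : SL(2, ℤ)), M = (h : Mat) * DX N l x := by
  obtain ⟨x, h, e⟩ := exists_herm hl M hM
  refine ⟨x, h * (sigmaX N l x : SL(2, ℤ))⁻¹, ?_⟩
  rw [DX, sl_coe_mul, mul_assoc, sl_inv_mul, e]

theorem DX_unique {l : ℕ} (hl : l.Prime) {x y : Option (Fin l)} {h : SL(2, ℤ)}
    (e : DX N l x = (h : Mat) * DX N l y) : x = y := by
  refine herm_unique hl (h := (sigmaX N l x : SL(2, ℤ))⁻¹ * h * (sigmaX N l y : SL(2, ℤ))) ?_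
  have h3 : Mx l x = (((sigmaX N l x : SL(2, ℤ))⁻¹ : SL(2, ℤ)) : Mat) * DX N l x := by
    rw [DX, sl_inv_mul]
  rw [h3, e, DX, sl_coe_mul, sl_coe_mul]
  simp only [mul_assoc]

theorem DX_eq_unique {l : ℕ} (hl : l.Prime) {x y : Option (Fin l)} {g h : SL(2, ℤ)}
    (e : (g : Mat) * DX N l x = (h : Mat) * DX N l y) : g = h ∧ x = y := by
  have h1 : x = y := by
    refine DX_unique (N := N) hl (h := g⁻¹ * h) ?_
    rw [sl_coe_mul, mul_assoc, ← e, sl_inv_mul]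
  subst h1
  refine ⟨?_, rfl⟩
  have h2 := mat_cancel_right (by rw [DX_det]; exact_mod_cast hl.ne_zero) e
  exact Matrix.SpecialLinearGroup.ext_iff _ _ |>.mpr fun i j => congrFun (congrFun h2 i) j

theorem adj_entries (M : Mat) : Matrix.adjugate M 0 0 = M 1 1 ∧ Matrix.adjugate M 1 0 = -M 1 0 := by
  rw [Matrix.adjugate_fin_two]
  exact ⟨rfl, rfl⟩

theorem det_adj (M : Mat) : (Matrix.adjugate M).det = M.det := by
  rw [Matrix.det_adjugate]; simp

theorem adj_adj (M : Mat) : Matrix.adjugate (Matrix.adjugate M) = M := by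
  rw [Matrix.adjugate_adjugate _ (by simp)]; simp

section Bij

variable (h1 : Gamma1 N ≤ G) (h0 : G ≤ Gamma0 N) {l : ℕ} (hl : l.Prime) (hN : ¬ l ∣ N)

include h1 h0 hl hN

theorem exists_adj (γ : SL(2, ℤ)) (hγ : γ ∈ G) (x : Option (Fin l)) :
    ∃ γ' ∈ G, ∃ x', ((γ' * (sigmaD N l : SL(2, ℤ))⁻¹ : SL(2, ℤ)) : Mat) * DX N l x' =
      Matrix.adjugate ((γ : Mat) * DX N l x) := by
  obtain ⟨x', h, e⟩ := exists_DX (N := N) hl (Matrix.adjugate ((γ : Mat) * DX N l x)) (by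
    rw [det_adj, Matrix.det_mul, γ.det_coe, one_mul, DX_det])
  refine ⟨h * (sigmaD N l : SL(2, ℤ)), ?_, x', by rw [mul_inv_cancel_right, e]⟩
  have hco := isCoprime_of_prime hl hN
  have z : ∀ {a : ℤ}, (N : ℤ) ∣ a → ((a : ℤ) : ZMod N) = 0 := fun {a} ha =>
    (ZMod.intCast_zmod_eq_zero_iff_dvd a N).mpr ha
  have z' : ∀ {a : ℤ}, ((a : ℤ) : ZMod N) = 0 → (N : ℤ) ∣ a := fun {a} ha =>
    (ZMod.intCast_zmod_eq_zero_iff_dvd a N).mp ha
  have d := sigmaX_gmat hl hN x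
  have d' := sigmaX_gmat hl hN x'
  have k1 := z d.d10
  have k2 := z d.d00
  have k1' := z d'.d10
  have k2' := z d'.d00
  have k3 := congrArg (Int.cast : ℤ → ZMod N) (DX_det N l x)
  rw [Matrix.det_fin_two] at k3
  have k4 := z (mem_G0.mp (h0 hγ))
  have k5 := z (mem_G0.mp (sigmaD N l).2)
  have k6 := z (sigmaD_00 hco)
  have k7 := congrArg (Int.cast : ℤ → ZMod N) (sigmaD_11 hco)
  have e00 := congrArg (Int.cast : ℤ → ZMod N) (congrFun (congrFun e 0) 0)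
  have e10 := congrArg (Int.cast : ℤ → ZMod N) (congrFun (congrFun e 1) 0)
  rw [(adj_entries _).1, Matrix.mul_apply, Matrix.mul_apply, Fin.sum_univ_two,
    Fin.sum_univ_two] at e00
  rw [(adj_entries _).2, Matrix.mul_apply, Matrix.mul_apply, Fin.sum_univ_two,
    Fin.sum_univ_two] at e10
  change ((DX N l x 1 0 : ℤ) : ZMod N) = 0 at k1
  change ((DX N l x 0 0 - 1 : ℤ) : ZMod N) = 0 at k2
  change ((DX N l x' 1 0 : ℤ) : ZMod N) = 0 at k1'
  change ((DX N l x' 0 0 - 1 : ℤ) : ZMod N) = 0 at k2'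
  push_cast at k2 k2' k3 k6 k7 e00 e10
  have i00 : (γ⁻¹) 0 0 = γ 1 1 := by simp [Matrix.adjugate_fin_two]
  have i10 : (γ⁻¹) 1 0 = -γ 1 0 := by simp [Matrix.adjugate_fin_two]
  have m1 : ((h 1 0 : ℤ) : ZMod N) = 0 := by
    linear_combination -e10 - (h 1 0 : ZMod N) * k2' - (h 1 1 : ZMod N) * k1' -
      (DX N l x 0 0 : ZMod N) * k4 - (γ 1 1 : ZMod N) * k1
  have m2 : ((h 0 0 : ℤ) : ZMod N) = (γ 1 1 : ℤ) * (l : ZMod N) := by
    linear_combination -e00 - (h 0 0 : ZMod N) * k2' - (h 0 1 : ZMod N) * k1' +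
      (DX N l x 0 1 : ZMod N) * k4 + (γ 1 1 : ZMod N) * k3 -
      (γ 1 1 : ZMod N) * (DX N l x 1 1 : ZMod N) * k2 +
      (γ 1 1 : ZMod N) * (DX N l x 0 1 : ZMod N) * k1
  refine mem_of_congr' h1 (g := γ⁻¹) (inv_mem hγ) ?_ ?_ ?_
  · rw [i10]
    exact (dvd_neg).mpr (mem_G0.mp (h0 hγ))
  · apply z'
    rw [sl_mul_10]
    push_cast
    linear_combination ((sigmaD N l : SL(2, ℤ)) 0 0 : ZMod N) * m1 + (h 1 1 : ZMod N) * k5
  · apply z'
    rw [sl_mul_00, i00]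
    push_cast
    linear_combination ((sigmaD N l : SL(2, ℤ)) 0 0 : ZMod N) * m2 + (h 0 1 : ZMod N) * k5 +
      (γ 1 1 : ZMod N) * k6

theorem exists_adj' (γ' : SL(2, ℤ)) (hγ' : γ' ∈ G) (x' : Option (Fin l)) :
    ∃ γ ∈ G, ∃ x, (γ : Mat) * DX N l x = Matrix.adjugate
      (((γ' * (sigmaD N l : SL(2, ℤ))⁻¹ : SL(2, ℤ)) : Mat) * DX N l x') := by
  obtain ⟨x, h, e⟩ := exists_DX (N := N) hl (Matrix.adjugate
      (((γ' * (sigmaD N l : SL(2, ℤ))⁻¹ : SL(2, ℤ)) : Mat) * DX N l x')) (by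
    rw [det_adj, Matrix.det_mul, Matrix.SpecialLinearGroup.det_coe, one_mul, DX_det])
  refine ⟨h, ?_, x, e.symm⟩
  have hco := isCoprime_of_prime hl hN
  have z : ∀ {a : ℤ}, (N : ℤ) ∣ a → ((a : ℤ) : ZMod N) = 0 := fun {a} ha =>
    (ZMod.intCast_zmod_eq_zero_iff_dvd a N).mpr ha
  have z' : ∀ {a : ℤ}, ((a : ℤ) : ZMod N) = 0 → (N : ℤ) ∣ a := fun {a} ha =>
    (ZMod.intCast_zmod_eq_zero_iff_dvd a N).mp ha
  have d := sigmaX_gmat hl hN x'
  have d' := sigmaX_gmat hl hN x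
  have k1 := z d.d10
  have k2 := z d.d00
  have k1' := z d'.d10
  have k2' := z d'.d00
  have k3 := congrArg (Int.cast : ℤ → ZMod N) (DX_det N l x')
  rw [Matrix.det_fin_two] at k3
  have k4 := z (mem_G0.mp (h0 hγ'))
  have k5 := z (mem_G0.mp (sigmaD N l).2)
  have k6 := z (sigmaD_00 hco)
  have k7 := congrArg (Int.cast : ℤ → ZMod N) (sigmaD_11 hco)
  have e00 := congrArg (Int.cast : ℤ → ZMod N) (congrFun (congrFun e 0) 0)
  have e10 := congrArg (Int.cast : ℤ → ZMod N) (congrFun (congrFun e 1) 0)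
  have i00 : ((sigmaD N l : SL(2, ℤ))⁻¹) 0 0 = (sigmaD N l : SL(2, ℤ)) 1 1 := by
    simp [Matrix.adjugate_fin_two]
  have i10 : ((sigmaD N l : SL(2, ℤ))⁻¹) 1 0 = -(sigmaD N l : SL(2, ℤ)) 1 0 := by
    simp [Matrix.adjugate_fin_two]
  have i01 : ((sigmaD N l : SL(2, ℤ))⁻¹) 0 1 = -(sigmaD N l : SL(2, ℤ)) 0 1 := by
    simp [Matrix.adjugate_fin_two]
  have i11 : ((sigmaD N l : SL(2, ℤ))⁻¹) 1 1 = (sigmaD N l : SL(2, ℤ)) 0 0 := by
    simp [Matrix.adjugate_fin_two]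
  rw [(adj_entries _).1, Matrix.mul_apply, Matrix.mul_apply, Fin.sum_univ_two,
    Fin.sum_univ_two, sl_mul_10, sl_mul_11, i00, i10, i01, i11] at e00
  rw [(adj_entries _).2, Matrix.mul_apply, Matrix.mul_apply, Fin.sum_univ_two,
    Fin.sum_univ_two, sl_mul_10, sl_mul_11, i00, i10, i01, i11] at e10
  change ((DX N l x' 1 0 : ℤ) : ZMod N) = 0 at k1
  change ((DX N l x' 0 0 - 1 : ℤ) : ZMod N) = 0 at k2
  change ((DX N l x 1 0 : ℤ) : ZMod N) = 0 at k1'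
  change ((DX N l x 0 0 - 1 : ℤ) : ZMod N) = 0 at k2'
  push_cast at k2 k2' k3 k6 k7 e00 e10
  rw [k4, k5, k1, k1'] at e10
  rw [k4, k5, k1'] at e00
  have j1 : ((DX N l x' 0 0 : ℤ) : ZMod N) = 1 := by linear_combination k2
  have j2 : ((DX N l x 0 0 : ℤ) : ZMod N) = 1 := by linear_combination k2'
  have j3 : ((DX N l x' 1 1 : ℤ) : ZMod N) = l := by
    rw [j1, k1] at k3
    linear_combination k3
  rw [j1, j2] at e10
  rw [j2, j3] at e00
  have m1 : ((h 1 0 : ℤ) : ZMod N) = 0 := by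
    linear_combination -e10
  have m2 : ((h 0 0 : ℤ) : ZMod N) = (γ' 1 1 : ℤ) := by
    linear_combination -e00 + (γ' 1 1 : ZMod N) * k6
  have i00' : (γ'⁻¹) 0 0 = γ' 1 1 := by simp [Matrix.adjugate_fin_two]
  have i10' : (γ'⁻¹) 1 0 = -γ' 1 0 := by simp [Matrix.adjugate_fin_two]
  refine mem_of_congr' h1 (g := γ'⁻¹) (inv_mem hγ') ?_ (z' m1) ?_
  · rw [i10']
    exact (dvd_neg).mpr (mem_G0.mp (h0 hγ'))
  · apply z'
    rw [i00']
    push_cast
    rw [m2, sub_self]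

theorem exists_adjEquiv : ∃ e : G × Option (Fin l) ≃ G × Option (Fin l), ∀ p,
    ((((e p).1 : SL(2, ℤ)) * (sigmaD N l : SL(2, ℤ))⁻¹ : SL(2, ℤ)) : Mat) * DX N l (e p).2 =
      Matrix.adjugate (((p.1 : SL(2, ℤ)) : Mat) * DX N l p.2) := by
  choose a ha b hab using fun p : G × Option (Fin l) => exists_adj h1 h0 hl hN p.1 p.1.2 p.2
  refine ⟨Equiv.ofBijective (fun p => (⟨a p, ha p⟩, b p)) ⟨fun p q hpq => ?_, fun q => ?_⟩,
    fun p => hab p⟩
  · beta_reduce at hpq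
    rw [Prod.mk.injEq] at hpq
    have h2 : a p = a q := congrArg Subtype.val hpq.1
    have h3 := hab p
    rw [h2, hpq.2, hab q] at h3
    have h4 := congrArg Matrix.adjugate h3
    rw [adj_adj, adj_adj] at h4
    obtain ⟨h5, h6⟩ := DX_eq_unique hl h4
    exact (Prod.ext (Subtype.ext h5) h6).symm
  · obtain ⟨γ, hγ, x, e⟩ := exists_adj' h1 h0 hl hN q.1 q.1.2 q.2
    refine ⟨(⟨γ, hγ⟩, x), ?_⟩
    have h2 := hab (⟨γ, hγ⟩, x)
    rw [e, adj_adj] at h2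
    obtain ⟨h5, h6⟩ := DX_eq_unique hl h2
    exact Prod.ext (Subtype.ext (mul_right_cancel h5)) h6

end Bij

end

end Fermat.Agent.Pet
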