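import Fermat.Agent.Pet.HeckeAdj
import Fermat.Agent.ESG.Point

set_option autoImplicit false

/-!
# The Hecke algebra acting on cusp forms of weight two is reduced
-/

open MeasureTheory Set Filter Asymptotics
open UpperHalfPlane hiding I
open Matrix.SpecialLinearGroup CongruenceSubgroup Module
open Fermat.Agent.ES Fermat.Agent.ESCore Fermat.Agent.ESCore.UnivG Fermat.Agent.ESCore.Gal
open Fermat.Agent.RT.Ihara
open Fermat.Agent.ESCore.Univ (Idx)
open scoped MatrixGroups Modular NNReal ENNReal ModularForm ComplexConjugate Topology Manifold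

namespace Fermat.Agent.Pet

noncomputable section

/-! ### An algebraic lemma -/

section Abstract

variable {V : Type*} [AddCommGroup V] [Module ℂ V]

/-- a subalgebra closed under adjoints has no nilpotent elements, if it is commutative -/
theorem eq_zero_of_sq {B : V → V → ℂ} (hB : ∀ f, B f f = 0 → f = 0)
    (hB0 : ∀ f, B f 0 = 0) (hB1 : ∀ f, B 0 f = 0) {t t' : Module.End ℂ V} (hcomm : Commute t t')
    (ht : ∀ f g, B f (t g) = B (t' f) g) (ht2 : t * t = 0) : t = 0 := by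
  have h1 : ∀ f, t (t f) = 0 := fun f => by
    change (t * t) f = 0
    rw [ht2]; rfl
  have h2 : ∀ f, t (t' f) = t' (t f) := fun f => LinearMap.congr_fun hcomm f
  have h3 : ∀ f, t' (t f) = 0 := by
    intro f
    apply hB
    -- `B (t' t f) (t' t f) = B (t f) (t t' t f) = 0`
    rw [← ht, h2, h1, map_zero, hB0]
  refine LinearMap.ext fun f => ?_
  change t f = 0
  apply hB
  rw [ht, h3, hB1]

theorem eq_zero_of_pow {B : V → V → ℂ} (hB : ∀ f, B f f = 0 → f = 0)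
    (hB0 : ∀ f, B f 0 = 0) (hB1 : ∀ f, B 0 f = 0) (A : Subalgebra ℂ (Module.End ℂ V))
    (hA : ∀ t ∈ A, ∀ s ∈ A, Commute t s)
    (hadj : ∀ t ∈ A, ∃ t' ∈ A, ∀ f g, B f (t g) = B (t' f) g) {t : Module.End ℂ V} (ht : t ∈ A)
    {n : ℕ} (hn : t ^ n = 0) : t = 0 := by
  have key : ∀ k, t ^ (2 ^ k) = 0 → t = 0 := by
    intro k
    induction k with
    | zero => intro h; rwa [pow_zero, pow_one] at h
    | succ k ih =>
      intro h
      apply ih
      obtain ⟨t', ht', hadj'⟩ := hadj (t ^ (2 ^ k)) (pow_mem ht _)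
      refine eq_zero_of_sq hB hB0 hB1 (hA _ (pow_mem ht _) _ ht') hadj' ?_
      rw [← pow_add, ← two_mul, ← pow_succ', h]
  exact key n (pow_eq_zero_of_le (Nat.lt_two_pow_self).le hn)

end Abstract

variable {N : ℕ} [NeZero N] {G : Subgroup SL(2, ℤ)} {u : ℍ → ℝ}
  (h1 : Gamma1 N ≤ G) (h0 : G ≤ Gamma0 N)

/-- the Petersson product on cusp forms -/
def petS (u : ℍ → ℝ) (f g : S2 G) : ℂ := pet u f.1 g.1

omit [NeZero N] in
theorem matrix_heckeSysG {l : ℕ} (hl : l.Prime) (hN : ¬ l ∣ N) (x : Option (Fin l)) :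
    (((heckeSysG hl hN h1 h0).δ x : GL (Fin 2) ℝ) : Matrix (Fin 2) (Fin 2) ℝ) =
      (DX N l x).map (Int.cast : ℤ → ℝ) := matSys_T hl hN h1 h0 x

theorem mapGL_coe' (g : SL(2, ℤ)) : ((mapGL ℝ g : GL (Fin 2) ℝ) : Matrix (Fin 2) (Fin 2) ℝ) =
    (g : Mat).map (Int.cast : ℤ → ℝ) := by
  ext i j
  simp [Matrix.SpecialLinearGroup.mapGL_coe_matrix]

/-- **The adjoint of `T_l`.** -/
theorem hecke_adj (hu : Weight G u) {l : ℕ} (hl : l.Prime) (hN : ¬ l ∣ N) (f g : S2 G) :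
    petS u f (heckeS2 h1 h0 hl hN g) =
      petS u (heckeS2 h1 h0 hl hN (diaS2 h1 h0 (sigmaD N l)⁻¹ f)) g := by
  obtain ⟨e, he⟩ := exists_adjEquiv h1 h0 hl hN
  rw [petS, petS, heckeS2_coe, heckeS2_coe, diaS2_coe]
  have h2 : (∑ x, (f.1 ∣[(2 : ℤ)] (((sigmaD N l)⁻¹ : Gamma0 N) : SL(2, ℤ)))
      ∣[(2 : ℤ)] (heckeSysG hl hN h1 h0).δ x) = ∑ x, f.1 ∣[(2 : ℤ)]
        (mapGL ℝ (sigmaD N l : SL(2, ℤ))⁻¹ * (heckeSysG hl hN h1 h0).δ x : GL (Fin 2) ℝ) := by
    refine Finset.sum_congr rfl fun x _ => ?_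
    rw [SlashAction.slash_mul]
    rfl
  rw [h2]
  refine hu.adjoint (heckeSysG_det h1 h0 hl hN) (fun x => ?_) e (fun p => ⟨l, ?_⟩)
    (nice_S2 h1 f.2) (nice_S2 h1 g.2) (S2_inv' f.2) (S2_inv' g.2)
  · rw [map_mul, Units.val_mul]
    exact mul_pos (by simp) (heckeSysG_det h1 h0 hl hN x)
  · rw [← mul_assoc (mapGL ℝ ((e p).1 : SL(2, ℤ))), ← map_mul, Units.val_mul, Units.val_mul,
      Units.val_mul, mapGL_coe', mapGL_coe', matrix_heckeSysG, matrix_heckeSysG]
    have e1 : ∀ A B : Mat, (A * B).map (Int.cast : ℤ → ℝ) =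
        A.map (Int.cast : ℤ → ℝ) * B.map (Int.cast : ℤ → ℝ) := fun A B =>
      Matrix.map_mul (f := Int.castRingHom ℝ)
    rw [← e1, ← e1, ← e1, he p, Matrix.adjugate_mul, Matrix.det_mul,
      Matrix.SpecialLinearGroup.det_coe, one_mul, DX_det]
    ext i j
    rw [Matrix.map_apply, Matrix.smul_apply, Matrix.smul_apply, Matrix.one_apply,
      Matrix.one_apply]
    split_ifs <;> simp

/-- **The adjoint of the diamond operators.** -/
theorem dia_adj (hu : Weight G u) (δ : Gamma0 N) (f g : S2 G) :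
    petS u f (diaS2 h1 h0 δ g) = petS u (diaS2 h1 h0 δ⁻¹ f) g := by
  have hc : ∀ γ : G, ((conjG h1 h0 δ⁻¹ γ : G) : SL(2, ℤ)) =
      ((δ : SL(2, ℤ)))⁻¹ * (γ : SL(2, ℤ)) * (δ : SL(2, ℤ)) := by
    intro γ
    change ((δ⁻¹ : Gamma0 N) : SL(2, ℤ)) * (γ : SL(2, ℤ)) * ((δ⁻¹ : Gamma0 N) : SL(2, ℤ))⁻¹ = _
    rw [Subgroup.coe_inv, inv_inv]
  have hc' : ∀ γ : G, ((conjG h1 h0 δ γ : G) : SL(2, ℤ)) =
      (δ : SL(2, ℤ)) * (γ : SL(2, ℤ)) * (δ : SL(2, ℤ))⁻¹ := fun γ => rfl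
  let e : G × Unit ≃ G × Unit :=
    { toFun := fun p => (conjG h1 h0 δ⁻¹ p.1⁻¹, ())
      invFun := fun p => ((conjG h1 h0 δ p.1)⁻¹, ())
      left_inv := fun p => by
        refine Prod.ext (Subtype.ext ?_) rfl
        rw [Subgroup.coe_inv, hc', hc, Subgroup.coe_inv]
        group
      right_inv := fun p => by
        refine Prod.ext (Subtype.ext ?_) rfl
        rw [hc, Subgroup.coe_inv, Subgroup.coe_inv, hc']
        group }
  have key := hu.adjoint (X := Unit) (X' := Unit) (δ := fun _ => mapGL ℝ (δ : SL(2, ℤ)))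
    (δ' := fun _ => mapGL ℝ (δ : SL(2, ℤ))⁻¹) (fun _ => by simp) (fun _ => by simp) e
    (fun p => ⟨1, by
      have h2 : (mapGL ℝ ((e p).1 : SL(2, ℤ)) * mapGL ℝ (δ : SL(2, ℤ))⁻¹) *
          (mapGL ℝ (p.1 : SL(2, ℤ)) * mapGL ℝ (δ : SL(2, ℤ))) = (1 : GL (Fin 2) ℝ) := by
        rw [← map_mul, ← map_mul, ← map_mul]
        have h3 : ((e p).1 : SL(2, ℤ)) * (δ : SL(2, ℤ))⁻¹ *
            ((p.1 : SL(2, ℤ)) * (δ : SL(2, ℤ))) = 1 := by
          change ((conjG h1 h0 δ⁻¹ p.1⁻¹ : G) : SL(2, ℤ)) * (δ : SL(2, ℤ))⁻¹ *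
            ((p.1 : SL(2, ℤ)) * (δ : SL(2, ℤ))) = 1
          rw [hc, Subgroup.coe_inv]
          group
        rw [h3, map_one]
      rw [h2, one_smul]
      rfl⟩)
    (nice_S2 h1 f.2) (nice_S2 h1 g.2) (S2_inv' f.2) (S2_inv' g.2)
  rw [Fintype.sum_unique, Fintype.sum_unique] at key
  exact key

/-- the complex Hecke algebra -/
def TC (S : Finset ℕ) : Subalgebra ℂ (Module.End ℂ (S2 G)) :=
  Algebra.adjoin ℂ (Set.range (genS2 h1 h0 S))

variable {h1 h0}

omit [NeZero N] in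
theorem genS2_mem_TC (S : Finset ℕ) (i : Idx N S ⊕ Gamma0 N) : genS2 h1 h0 S i ∈ TC h1 h0 S :=
  Algebra.subset_adjoin ⟨i, rfl⟩

omit [NeZero N] in
theorem dia_mem_TC (S : Finset ℕ) (δ : Gamma0 N) : diaS2 h1 h0 δ ∈ TC h1 h0 S :=
  genS2_mem_TC S (Sum.inr δ)

theorem petS_adj (hu : Weight G u) (S : Finset ℕ) {t : Module.End ℂ (S2 G)}
    (ht : t ∈ TC h1 h0 S) :
    ∃ t' ∈ TC h1 h0 S, ∀ f g, petS u f (t g) = petS u (t' f) g := by
  have hn : ∀ f : S2 G, Nice f.1 := fun f => nice_S2 h1 f.2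
  induction ht using Algebra.adjoin_induction with
  | mem x hx =>
    obtain ⟨i, rfl⟩ := hx
    rcases i with i | δ
    · exact ⟨heckeS2 h1 h0 i.2.1 i.2.2.1 * diaS2 h1 h0 (sigmaD N i.1)⁻¹,
        mul_mem (genS2_mem_TC S (Sum.inl i)) (dia_mem_TC S _), fun f g =>
          hecke_adj h1 h0 hu i.2.1 i.2.2.1 f g⟩
    · exact ⟨diaS2 h1 h0 δ⁻¹, dia_mem_TC S _, fun f g => dia_adj h1 h0 hu δ f g⟩
  | algebraMap c =>
    refine ⟨algebraMap ℂ _ (conj c), Subalgebra.algebraMap_mem _ _, fun f g => ?_⟩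
    rw [Module.algebraMap_end_apply, Module.algebraMap_end_apply]
    change pet u f.1 (c • g.1) = pet u (conj c • f.1) g.1
    rw [pet_smul_right, pet_smul_left, Complex.conj_conj]
  | add x y hx hy ihx ihy =>
    obtain ⟨x', hx', ex⟩ := ihx
    obtain ⟨y', hy', ey⟩ := ihy
    refine ⟨x' + y', add_mem hx' hy', fun f g => ?_⟩
    change pet u f.1 ((x g).1 + (y g).1) = pet u ((x' f).1 + (y' f).1) g.1
    rw [hu.pet_add_right (hn f) (hn _) (hn _), hu.pet_add_left (hn _) (hn _) (hn g)]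
    exact congrArg₂ (· + ·) (ex f g) (ey f g)
  | mul x y hx hy ihx ihy =>
    obtain ⟨x', hx', ex⟩ := ihx
    obtain ⟨y', hy', ey⟩ := ihy
    refine ⟨y' * x', mul_mem hy' hx', fun f g => ?_⟩
    rw [Module.End.mul_apply, Module.End.mul_apply, ex, ey]

theorem petS_eq_zero (hu : Weight G u) (h1 : Gamma1 N ≤ G) (f : S2 G) (h : petS u f f = 0) :
    f = 0 :=
  Subtype.ext (hu.eq_zero (nice_S2 h1 f.2) (S2_inv' f.2) h)

variable (h1 h0)

theorem TC_comm (S : Finset ℕ) {s t : Module.End ℂ (S2 G)} (hs : s ∈ TC h1 h0 S)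
    (ht : t ∈ TC h1 h0 S) : Commute s t := by
  have h2 : ∀ x ∈ Set.range (genS2 h1 h0 S), ∀ y ∈ Set.range (genS2 h1 h0 S), Commute x y := by
    rintro _ ⟨i, rfl⟩ _ ⟨j, rfl⟩
    exact Fermat.Agent.ESG.genS2_comm h1 h0 S i j
  have h3 : ∀ x ∈ Set.range (genS2 h1 h0 S), Commute x t := by
    intro x hx
    induction ht using Algebra.adjoin_induction with
    | mem y hy => exact h2 x hx y hy
    | algebraMap c => exact (Algebra.commutes c x).symm
    | add y z _ _ hy hz => exact hy.add_right hz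
    | mul y z _ _ hy hz => exact hy.mul_right hz
  induction hs using Algebra.adjoin_induction with
  | mem y hy => exact h3 y hy
  | algebraMap c => exact Algebra.commutes c t
  | add y z _ _ hy hz => exact hy.add_left hz
  | mul y z _ _ hy hz => exact hy.mul_left hz

/-- **The complex Hecke algebra has no nilpotents.** -/
theorem TC_eq_zero (S : Finset ℕ) {t : Module.End ℂ (S2 G)} (ht : t ∈ TC h1 h0 S) {n : ℕ}
    (hn : t ^ n = 0) : t = 0 := by
  have : G.FiniteIndex := Subgroup.finiteIndex_of_le h1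
  obtain ⟨u, hu⟩ := exists_weight G
  exact eq_zero_of_pow (B := petS u) (fun f => petS_eq_zero hu h1 f)
    (fun f => pet_zero_right u f.1) (fun f => pet_zero_left u f.1) (TC h1 h0 S)
    (fun t ht s hs => TC_comm h1 h0 S ht hs) (fun t ht => petS_adj hu S ht) ht hn

instance isReduced_TC (S : Finset ℕ) : IsReduced (TC h1 h0 S) where
  eq_zero x := by
    rintro ⟨n, hn⟩
    exact Subtype.ext (TC_eq_zero h1 h0 S x.2 (congrArg Subtype.val hn))

omit [NeZero N] in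
theorem TS2_le_TC (S : Finset ℕ) {t : Module.End ℂ (S2 G)} (ht : t ∈ TS2 h1 h0 S) :
    t ∈ TC h1 h0 S := by
  induction ht using Algebra.adjoin_induction with
  | mem x hx => exact Algebra.subset_adjoin hx
  | algebraMap c =>
    have h2 : algebraMap ℤ (Module.End ℂ (S2 G)) c = algebraMap ℂ (Module.End ℂ (S2 G)) c := by
      refine LinearMap.ext fun f => ?_
      rw [Module.algebraMap_end_apply, Module.algebraMap_end_apply]
      exact (Int.cast_smul_eq_zsmul ℂ c f).symm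
    rw [h2]
    exact (TC h1 h0 S).algebraMap_mem _
  | add y z _ _ hy hz => exact add_mem hy hz
  | mul y z _ _ hy hz => exact mul_mem hy hz

/-- **The Hecke algebra acting on cusp forms of weight two is reduced.** -/
instance isReduced_TS2 (S : Finset ℕ) : IsReduced (TS2 h1 h0 S) where
  eq_zero x := by
    rintro ⟨n, hn⟩
    exact Subtype.ext (TC_eq_zero h1 h0 S (TS2_le_TC h1 h0 S x.2) (congrArg Subtype.val hn))

end

end Fermat.Agent.Pet
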