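import Fermat.Agent.Pet.Box

set_option autoImplicit false

/-!
# A weight function on the upper half plane: a partition of unity for a finite index subgroup
-/

open MeasureTheory Set
open UpperHalfPlane hiding I
open Matrix.SpecialLinearGroup
open scoped MatrixGroups Modular NNReal ENNReal

namespace Fermat.Agent.Pet

/-- a partition of unity for `G` -/
structure Weight (G : Subgroup SL(2, ℤ)) (u : ℍ → ℝ) : Prop where
  meas : Measurable u
  nonneg : ∀ τ, 0 ≤ u τ
  sum : ∀ τ, HasSum (fun γ : G => u ((γ : SL(2, ℤ)) • τ)) 1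
  int : Integrable u volume

theorem sl_smul_eq (g : SL(2, ℤ)) (τ : ℍ) : g • τ = (mapGL ℝ g : GL (Fin 2) ℝ) • τ := rfl

theorem im_smul_le (g : SL(2, ℤ)) (τ : ℍ) : (g • τ).im ≤ max τ.im (1 / τ.im) := by
  rw [ModularGroup.im_smul_eq_div_normSq, ModularGroup.denom_apply]
  by_cases hg : g 1 0 = 0
  · have : g 1 1 ≠ 0 := fun hg' ↦ zero_ne_one <| by
      simpa only [Matrix.det_fin_two, hg, hg', mul_zero, mul_zero, sub_zero] using g.det_coe
    have : (1 : ℝ) ≤ g 1 1 ^ 2 := mod_cast (one_le_sq_iff_one_le_abs _).mpr (Int.one_le_abs this)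
    refine le_trans ?_ <| le_max_left _ _
    rw [show Complex.normSq ((g 1 0) * τ + (g 1 1)) = (g 1 1) ^ 2 by simp [hg, sq]]
    exact div_le_self τ.im_pos.le this
  · refine le_trans ?_ <| le_max_right _ _
    rw [show 1 / τ.im = τ.im / τ.im ^ 2 by field_simp]
    have hp := τ.im_pos
    gcongr
    rw [show Complex.normSq ((g 1 0) * τ + (g 1 1)) =
      ((g 1 0) * τ.re + (g 1 1)) ^ 2 + (g 1 0) ^ 2 * τ.im ^ 2 by simp [Complex.normSq_apply]; ring]
    have : (1 : ℝ) ≤ g 1 0 ^ 2 := mod_cast (one_le_sq_iff_one_le_abs _).mpr (Int.one_le_abs hg)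
    nlinarith

theorem finite_fd (τ : ℍ) : {g : SL(2, ℤ) | g • τ ∈ (𝒟 : Set ℍ)}.Finite := by
  have h := ProperlyDiscontinuousSMul.finite_disjoint_inter_image (Γ := (𝒮ℒ : Subgroup (GL (Fin 2) ℝ)))
    (T := ℍ) (isCompact_singleton (x := τ))
    (ModularGroup.isCompact_truncatedFundamentalDomain (max τ.im (1 / τ.im)))
  let φ : SL(2, ℤ) → (𝒮ℒ : Subgroup (GL (Fin 2) ℝ)) := fun g => ⟨mapGL ℝ g, ⟨g, rfl⟩⟩
  have hφ : Function.Injective φ := fun g g' hg =>
    mapGL_injective (S := ℝ) (congrArg Subtype.val hg)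
  refine (h.preimage hφ.injOn).subset fun g hg => ?_
  exact ⟨g • τ, ⟨τ, rfl, rfl⟩, hg, im_smul_le g τ⟩

/-- the indicator function of the fundamental domain -/
noncomputable def wt (τ : ℍ) : ℝ := (𝒟 : Set ℍ).indicator (fun _ => 1) τ

theorem isClosed_fd : IsClosed (𝒟 : Set ℍ) := by
  have h : (𝒟 : Set ℍ) = {τ : ℍ | 1 ≤ Complex.normSq (τ : ℂ)} ∩ {τ : ℍ | |τ.re| ≤ 1 / 2} := rfl
  rw [h]
  refine IsClosed.inter (isClosed_le continuous_const ?_) (isClosed_le ?_ continuous_const)
  · exact Complex.continuous_normSq.comp UpperHalfPlane.continuous_coe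
  · exact UpperHalfPlane.continuous_re.abs

theorem measurable_wt : Measurable wt :=
  measurable_const.indicator isClosed_fd.measurableSet

theorem wt_nonneg (τ : ℍ) : 0 ≤ wt τ := indicator_nonneg (fun _ _ => zero_le_one) _

theorem wt_of_mem {τ : ℍ} (h : τ ∈ (𝒟 : Set ℍ)) : wt τ = 1 := indicator_of_mem h _

theorem wt_of_notMem {τ : ℍ} (h : τ ∉ (𝒟 : Set ℍ)) : wt τ = 0 := indicator_of_notMem h _

theorem summable_wt (τ : ℍ) : Summable fun g : SL(2, ℤ) => wt (g • τ) := by
  refine summable_of_hasFiniteSupport ((finite_fd τ).subset fun g hg => ?_)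
  by_contra h
  exact hg (wt_of_notMem h)

/-- the number of translates of `τ` in the fundamental domain -/
noncomputable def WT (τ : ℍ) : ℝ := ∑' g : SL(2, ℤ), wt (g • τ)

theorem measurable_smul_sl (g : SL(2, ℤ)) : Measurable fun τ : ℍ => g • τ :=
  (continuous_const_smul (mapGL ℝ g : GL (Fin 2) ℝ)).measurable

theorem countable_sl : Countable SL(2, ℤ) :=
  haveI : Countable (Matrix (Fin 2) (Fin 2) ℤ) := inferInstanceAs (Countable (Fin 2 → Fin 2 → ℤ))
  inferInstanceAs (Countable {A : Matrix (Fin 2) (Fin 2) ℤ // A.det = 1})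

attribute [local instance] countable_sl

theorem measurable_WT : Measurable WT := by
  have h : WT = fun τ => (∑' g : SL(2, ℤ), ENNReal.ofReal (wt (g • τ))).toReal := by
    funext τ
    rw [← ENNReal.ofReal_tsum_of_nonneg (fun g => wt_nonneg _) (summable_wt τ),
      ENNReal.toReal_ofReal (tsum_nonneg fun g => wt_nonneg _)]
    rfl
  rw [h]
  refine Measurable.ennreal_toReal (Measurable.tsum fun g => ?_)
  exact (measurable_wt.comp (measurable_smul_sl g)).ennreal_ofReal

theorem one_le_WT (τ : ℍ) : 1 ≤ WT τ := by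
  obtain ⟨g, hg⟩ := ModularGroup.exists_smul_mem_fd τ
  have h := (summable_wt τ).le_tsum g (fun _ _ => wt_nonneg _)
  rwa [wt_of_mem hg] at h

theorem WT_smul (g : SL(2, ℤ)) (τ : ℍ) : WT (g • τ) = WT τ := by
  rw [WT, WT, ← (Equiv.mulRight g).tsum_eq fun h => wt (h • τ)]
  refine tsum_congr fun h => ?_
  rw [Equiv.coe_mulRight, mul_smul]

variable (G : Subgroup SL(2, ℤ))

/-- every element is uniquely a product of a representative and an element of `G` -/
noncomputable def cosetEquiv : G × (SL(2, ℤ) ⧸ G) ≃ SL(2, ℤ) :=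
  Equiv.ofBijective (fun p => p.2.out * (p.1 : SL(2, ℤ))) (by
    constructor
    · rintro ⟨γ, q⟩ ⟨γ', q'⟩ h
      beta_reduce at h
      have hq : q = q' := by
        have h1 : (QuotientGroup.mk (q.out * (γ : SL(2, ℤ))) : SL(2, ℤ) ⧸ G) =
            QuotientGroup.mk (q'.out * (γ' : SL(2, ℤ))) := congrArg _ h
        rw [QuotientGroup.mk_mul_of_mem _ γ.2, QuotientGroup.mk_mul_of_mem _ γ'.2] at h1
        rwa [QuotientGroup.out_eq', QuotientGroup.out_eq'] at h1
      subst hq
      rw [mul_left_cancel_iff] at h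
      have h' : γ = γ' := Subtype.ext h
      rw [h']
    · intro g
      have h1 : ((QuotientGroup.mk g : SL(2, ℤ) ⧸ G).out)⁻¹ * g ∈ G :=
        QuotientGroup.eq.mp (QuotientGroup.out_eq' _)
      exact ⟨(⟨_, h1⟩, QuotientGroup.mk g), mul_inv_cancel_left _ _⟩)

theorem cosetEquiv_apply (γ : G) (q : SL(2, ℤ) ⧸ G) :
    cosetEquiv G (γ, q) = q.out * (γ : SL(2, ℤ)) := rfl

theorem integrable_wt (g : SL(2, ℤ)) : Integrable (fun τ : ℍ => wt (g • τ)) volume := by
  have h : Integrable wt volume := by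
    refine (integrable_indicator_iff isClosed_fd.measurableSet).mpr ?_
    exact integrableOn_const volume_fd_lt_top.ne
  exact (measurePreserving_smul (mapGL ℝ g : GL (Fin 2) ℝ) (volume : Measure ℍ)).integrable_comp
    h.aestronglyMeasurable |>.mpr h

theorem exists_weight [G.FiniteIndex] : ∃ u : ℍ → ℝ, Weight G u := by
  classical
  have : Fintype (SL(2, ℤ) ⧸ G) := Subgroup.fintypeQuotientOfFiniteIndex
  have hm : Measurable fun τ : ℍ => (∑ q : SL(2, ℤ) ⧸ G, wt (q.out • τ)) / WT τ :=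
    (Finset.measurable_fun_sum _ fun q _ => measurable_wt.comp (measurable_smul_sl _)).div
      measurable_WT
  have hW : ∀ τ, 0 < WT τ := fun τ => lt_of_lt_of_le one_pos (one_le_WT τ)
  refine ⟨fun τ => (∑ q : SL(2, ℤ) ⧸ G, wt (q.out • τ)) / WT τ, hm, fun τ => ?_, fun τ => ?_, ?_⟩
  · exact div_nonneg (Finset.sum_nonneg fun q _ => wt_nonneg _) (hW τ).le
  · have h1 : HasSum (fun p : G × (SL(2, ℤ) ⧸ G) => wt (cosetEquiv G p • τ)) (WT τ) :=
      (Equiv.hasSum_iff (cosetEquiv G) (f := fun g : SL(2, ℤ) => wt (g • τ))).mpr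
        (summable_wt τ).hasSum
    have h2 := h1.prod_fiberwise (g := fun γ : G => ∑ q : SL(2, ℤ) ⧸ G,
      wt (cosetEquiv G (γ, q) • τ)) (fun γ => hasSum_fintype _)
    have h3 := h2.div_const (WT τ)
    rw [div_self (hW τ).ne'] at h3
    have e : (fun γ : G => (∑ q : SL(2, ℤ) ⧸ G, wt (q.out • (γ : SL(2, ℤ)) • τ)) /
        WT ((γ : SL(2, ℤ)) • τ)) = fun γ : G => (∑ q : SL(2, ℤ) ⧸ G,
      wt (cosetEquiv G (γ, q) • τ)) / WT τ := by
      funext γ
      rw [WT_smul]
      refine congrArg (· / WT τ) (Finset.sum_congr rfl fun q _ => ?_)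
      rw [cosetEquiv_apply, mul_smul]
    rw [e]
    exact h3
  · refine Integrable.mono' (integrable_finsetSum Finset.univ fun (q : SL(2, ℤ) ⧸ G) _ =>
      integrable_wt q.out) hm.aestronglyMeasurable (Filter.Eventually.of_forall fun τ => ?_)
    rw [Real.norm_of_nonneg (div_nonneg (Finset.sum_nonneg fun q _ => wt_nonneg _) (hW τ).le)]
    exact div_le_self (Finset.sum_nonneg fun q _ => wt_nonneg _) (one_le_WT τ)

end Fermat.Agent.Pet
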